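import Fermat.Prelude.Def_CuspForm_HeckeAlgebra
import Fermat.Prelude.Def_ModularCurve_HeckeModule

/-!
# Inputs from the arithmetic of `J₀(N)` used to attach Galois representations

The propositions `FrobeniusDivisions`, `OpenStabilizers` and `KillLattice`, and the structure
`JacobianInputs N p` bundling what the attachment needs; they are proved in `Supplied`.
-/

set_option autoImplicit false

noncomputable section

namespace FLTAgent.GaloisAttach

open ModularCurve

/-- Every element of the Galois group agrees on a given finite extension with a power of a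
Frobenius element outside a given finite set of primes. -/
def FrobeniusDivisions : Prop :=
  ∀ (L : IntermediateField ℚ (AlgebraicClosure ℚ)) [FiniteDimensional ℚ L] [IsGalois ℚ L]
    (g : AlgebraicClosure ℚ ≃ₐ[ℚ] AlgebraicClosure ℚ) (S : Finset ℕ),
    ∃ ℓ, ℓ.Prime ∧ ℓ ∉ S ∧ ∃ A : ValuationSubring (AlgebraicClosure ℚ), A.LiesOverPrime ℓ ∧
      ∃ σ : AlgebraicClosure ℚ ≃ₐ[ℚ] AlgebraicClosure ℚ,
        A.IsFrobeniusAt σ ℓ ∧ ∃ j : ℕ, ∀ x ∈ L, g x = (σ ^ j) x

/-- Points of `J₀(N)` have open stabilisers. -/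
def OpenStabilizers (N : ℕ) : Prop :=
  ∀ x : JZero N, ∃ L : IntermediateField ℚ (AlgebraicClosure ℚ), FiniteDimensional ℚ L ∧
    ∀ σ : AlgebraicClosure ℚ ≃ₐ[ℚ] AlgebraicClosure ℚ, (∀ y ∈ L, σ y = y) → σ • x = x

/-- An element killing `J[p^k]` is divisible by `p^k` on a lattice on which the Hecke operators
of cusp forms act faithfully. -/
def KillLattice (N p : ℕ) [NeZero N] : Prop :=
  letI := heckeModuleBar N
  ∃ (Λ : Type) (_ : AddCommGroup Λ) (_ : Module.Finite ℤ Λ) (_ : Module.Free ℤ Λ)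
    (Φ : HeckeAlg →+* Module.End ℤ Λ)
    (ev : HeckeAlg →+* Module.End ℂ (CuspForm (CongruenceSubgroup.Gamma0 N) 2)),
    (∀ (ℓ : Nat.Primes) (h : ¬ (ℓ : ℕ) ∣ N), ev (heckeGen ℓ) = CuspForm.heckeTLin 2 ℓ.2 h) ∧
    (∀ t, Φ t = 0 → ev t = 0) ∧
    ∀ (k : ℕ) (t : HeckeAlg), (∀ x : JZero N, (p ^ k) • x = 0 → t • x = 0) →
      ∀ v : Λ, ∃ w, Φ t v = (p ^ k) • w

/-- Everything that the attachment of Galois representations needs from `J₀(N)` at `p`. -/
structure JacobianInputs (N p : ℕ) [NeZero N] : Prop where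
  smulComm : letI := heckeModuleBar N;
    SMulCommClass (AlgebraicClosure ℚ ≃ₐ[ℚ] AlgebraicClosure ℚ) HeckeAlg (JZero N)
  specialization : letI := heckeModuleBar N;
    haveI := smulComm;
    SpecializationExists (K := ℚ) (L := AlgebraicClosure ℚ) N p (JZero N)
  finite_torsion : ∀ k : ℕ, {x : JZero N | (p ^ k) • x = 0}.Finite
  stab : OpenStabilizers N
  kill : KillLattice N p

end FLTAgent.GaloisAttach
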