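import Fermat.Agent.FFBasic.Approximation
import Fermat.Agent.FFBasic.Degree
import Fermat.Agent.ModularFF.Degree
import Fermat.Agent.GaloisAttach.Inputs
import Fermat.Prelude.Def_GaloisRep_ComplexConjugation

/-!
# Points of `J₀(N)(ℚ̄)` have open stabilisers

Each place of the function field over `ℚ̄` is fixed by an open subgroup of the Galois group
(`exists_place_stabilizer`), hence so is every point of the Jacobian (`openStabilizers`).  Also
shows that the function field of `X₀(N)` over `ℚ̄` is a function field (`isFunctionField_bar`).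
-/

set_option autoImplicit false

noncomputable section

open AlgebraicCurve ModularCurve
open scoped Pointwise

namespace FLTAgent.GaloisAttach

local notation "Qb" => AlgebraicClosure ℚ

/-- `x` is fixed by all Galois elements fixing some finite extension. -/
def FixedByOpen (N : ℕ) (x : modularFunctionFieldBar N) : Prop :=
  ∃ L : IntermediateField ℚ Qb, FiniteDimensional ℚ L ∧
    ∀ σ : Qb ≃ₐ[ℚ] Qb, (∀ y ∈ L, σ y = y) →
      arithmeticGalois (modularFunctionFieldFull N) σ • x = x

theorem fixedByOpen (N : ℕ) (x : modularFunctionFieldBar N) : FixedByOpen N x := by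
  suffices h : ∀ z ∈ modularFunctionFieldBar N, ∃ L : IntermediateField ℚ Qb,
      FiniteDimensional ℚ L ∧
        ∀ σ : Qb ≃ₐ[ℚ] Qb, (∀ y ∈ L, σ y = y) → coeffMap (σ : Qb →+* Qb) z = z by
    obtain ⟨L, hL, hfix⟩ := h x x.2
    exact ⟨L, hL, fun σ hσ => Subtype.ext ((coe_arithmeticGalois_smul _ σ x).trans (hfix σ hσ))⟩
  intro z hz
  rw [mem_laurentBaseChange_iff] at hz
  induction hz using Subfield.closure_induction with
  | mem y hy =>
    rcases hy with ⟨a, rfl⟩ | ⟨u, -, rfl⟩
    · exact ⟨IntermediateField.adjoin ℚ {a},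
        IntermediateField.adjoin.finiteDimensional
          ((AlgebraicClosure.isAlgebraic ℚ).isAlgebraic a).isIntegral,
        fun σ hσ => by
          rw [coeffMap_algebraMap]
          exact congrArg _ (hσ a (IntermediateField.mem_adjoin_simple_self ℚ a))⟩
    · refine ⟨⊥, inferInstance, fun σ _ => ?_⟩
      rw [coeffEmb, coeffMap_coeffMap]
      exact coeffMap_congr (RingHom.ext fun r => σ.commutes r) u
  | one => exact ⟨⊥, inferInstance, fun σ _ => map_one _⟩
  | add a b _ _ ha hb =>
    obtain ⟨L₁, h₁, f₁⟩ := ha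
    obtain ⟨L₂, h₂, f₂⟩ := hb
    exact ⟨L₁ ⊔ L₂, IntermediateField.finiteDimensional_sup L₁ L₂, fun σ hσ => by
      rw [map_add, f₁ σ fun y hy => hσ y (le_sup_left (a := L₁) hy),
        f₂ σ fun y hy => hσ y (le_sup_right (b := L₂) hy)]⟩
  | neg a _ ha =>
    obtain ⟨L₁, h₁, f₁⟩ := ha
    exact ⟨L₁, h₁, fun σ hσ => by rw [map_neg, f₁ σ hσ]⟩
  | inv a _ ha =>
    obtain ⟨L₁, h₁, f₁⟩ := ha
    exact ⟨L₁, h₁, fun σ hσ => by rw [map_inv₀, f₁ σ hσ]⟩
  | mul a b _ _ ha hb =>
    obtain ⟨L₁, h₁, f₁⟩ := ha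
    obtain ⟨L₂, h₂, f₂⟩ := hb
    exact ⟨L₁ ⊔ L₂, IntermediateField.finiteDimensional_sup L₁ L₂, fun σ hσ => by
      rw [map_mul, f₁ σ fun y hy => hσ y (le_sup_left (a := L₁) hy),
        f₂ σ fun y hy => hσ y (le_sup_right (b := L₂) hy)]⟩

variable (N : ℕ) [NeZero N]

/-- The function field of `X₀(N)` over `ℚ̄` is a function field. -/
theorem isFunctionField_bar :
    FLTAgent.FFBasic.IsFunctionField Qb (modularFunctionFieldBar N) :=
  letI : Algebra Qb ℂ := complexEmbedding.toRingHom.toAlgebra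
  FLTAgent.ModularFF.isFunctionField_modField Qb N

/-- A place is fixed by an open subgroup. -/
theorem exists_place_stabilizer (v : Place Qb (modularFunctionFieldBar N)) :
    ∃ L : IntermediateField ℚ Qb, FiniteDimensional ℚ L ∧
      ∀ σ : Qb ≃ₐ[ℚ] Qb, (∀ y ∈ L, σ y = y) →
        arithmeticGalois (modularFunctionFieldFull N) σ • v = v := by
  classical
  have := isFunctionField_bar N
  obtain ⟨h, -, hh⟩ := FLTAgent.FFBasic.exists_ord_pos v
  let T := (FLTAgent.FFBasic.finite_setOf_ord_pos (K := Qb) h).toFinset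
  obtain ⟨z, -, hz, hneg⟩ :=
    FLTAgent.FFBasic.exists_pos_forall_neg v (T.erase v) (Finset.notMem_erase v T)
  obtain ⟨L₁, h₁, f₁⟩ := fixedByOpen N h
  obtain ⟨L₂, h₂, f₂⟩ := fixedByOpen N z
  refine ⟨L₁ ⊔ L₂, IntermediateField.finiteDimensional_sup L₁ L₂, fun σ hσ => ?_⟩
  set g := arithmeticGalois (modularFunctionFieldFull N) σ
  have e1 : (g • v).ord h = v.ord h := by
    conv_lhs => rw [← f₁ σ fun y hy => hσ y (le_sup_left (a := L₁) hy)]
    exact SemilinearAut.ord_smul g v h
  have e2 : (g • v).ord z = v.ord z := by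
    conv_lhs => rw [← f₂ σ fun y hy => hσ y (le_sup_right (b := L₂) hy)]
    exact SemilinearAut.ord_smul g v z
  by_contra hne
  have hmem : g • v ∈ T.erase v :=
    Finset.mem_erase.mpr ⟨hne, (Set.Finite.mem_toFinset _).mpr (show 0 < (g • v).ord h by omega)⟩
  have := hneg _ hmem
  omega

/-- The stabiliser of every point of `J₀(N)(ℚ̄)` is open. -/
theorem openStabilizers : OpenStabilizers N := by
  classical
  intro x
  obtain ⟨D, rfl⟩ := Pic0.mk_surjective x
  choose L hLfd hL using exists_place_stabilizer N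
  let s := (D : Divisor Qb (modularFunctionFieldBar N)).support
  have : ∀ v : s, FiniteDimensional ℚ (L v) := fun v => hLfd v
  refine ⟨⨆ v : s, L v, IntermediateField.finiteDimensional_iSup_of_finite, fun σ hσ => ?_⟩
  rw [galois_smul_pic0_def, SemilinearAut.pic0_smul_mk]
  refine congrArg Pic0.mk (Subtype.ext ?_)
  rw [SemilinearAut.coe_degZeroSMulHom, SemilinearAut.divisor_smul_def]
  refine (Finsupp.mapDomain_congr fun v hv => ?_).trans Finsupp.mapDomain_id
  exact hL v σ fun y hy => hσ y (le_iSup (fun v : s => L v) ⟨v, hv⟩ hy)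

end FLTAgent.GaloisAttach
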