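import Fermat.Agent.GaloisAttach.Main
import Fermat.Agent.GaloisAttach.Stabilizer
import Fermat.Agent.HeckeJacobian.Main
import Fermat.Agent.HeckeJacobian.HeckeCommute
import Fermat.Agent.CongruenceRel.Assembly
import Fermat.Agent.Density.Chebotarev

/-!
# The Jacobian inputs and Frobenius divisions, unconditionally

`frobeniusDivisions` comes from Chebotarev and `jacobianInputs` from the Hecke action on `J₀(N)`,
the congruence relation and open stabilisers.
-/

set_option autoImplicit false

noncomputable section

open ModularCurve AlgebraicCurve

namespace FLTAgent.GaloisAttach

local notation "Qbar" => AlgebraicClosure ℚ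

/-- `FrobeniusDivisions` holds. -/
theorem frobeniusDivisions : FrobeniusDivisions :=
  fun L _ _ g S => FLTAgent.Density.exists_frobenius_division L g S

/-- `JacobianInputs` holds at every level and prime. -/
theorem jacobianInputs (N : ℕ) [NeZero N] {p : ℕ} (hp : p.Prime) : JacobianInputs N p := by
  have : Fact p.Prime := ⟨hp⟩
  obtain ⟨hcomm, hfin⟩ := HeckeJacobian.smulComm_and_finite_torsion (N := N) p hp
  exact
    { smulComm := hcomm
      specialization := CongruenceRel.specializationExists N p
        (HeckeJacobian.heckeOperatorsCommuteBar N) hcomm
      finite_torsion := hfin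
      stab := openStabilizers N
      kill := HeckeJacobian.killLattice hp }

end FLTAgent.GaloisAttach
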