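import Mathlib.NumberTheory.Cyclotomic.CyclotomicCharacter
import Mathlib.RingTheory.RootsOfUnity.AlgebraicallyClosed
import Fermat.Agent.Density.Inertia
import Fermat.Prelude.Def_GaloisRep_ComplexConjugation

/-!
# The `p`-adic cyclotomic character on the absolute Galois group of `ℚ`

`cyc p` is the `ℤ_p`-valued character.  Its action on roots of unity, its value `ℓ` at a Frobenius
at `ℓ ≠ p` (`cyc_frobenius`), triviality on inertia away from `p` (`cyc_inertia`) and value `-1`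
at complex conjugation (`cyc_complexConjugation`).
-/

set_option autoImplicit false

noncomputable section

namespace FLTAgent.GaloisAttach

open FLTAgent.Density (GalQ Qbar)

variable (p : ℕ) [hp : Fact p.Prime]

/-- The `p`-adic cyclotomic character, as a monoid homomorphism to `ℤ_p`. -/
def cyc : GalQ →* ℤ_[p] :=
  ((Units.coeHom ℤ_[p]).comp (cyclotomicCharacter Qbar p)).comp
    (MulSemiringAction.toRingAut GalQ Qbar)

theorem primePow_ne_zero (n : ℕ) : NeZero (p ^ n) := ⟨pow_ne_zero _ hp.out.ne_zero⟩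

theorem enoughRoots (n : ℕ) : HasEnoughRootsOfUnity Qbar (p ^ n) :=
  haveI := primePow_ne_zero p n
  haveI : NeZero ((p ^ n : ℕ) : Qbar) := ⟨Nat.cast_ne_zero.mpr (pow_ne_zero _ hp.out.ne_zero)⟩
  IsSepClosed.hasEnoughRootsOfUnity Qbar (p ^ n)

/-- Galois acts on roots of unity of `p`-power order through the cyclotomic character. -/
theorem apply_rootOfUnity (g : GalQ) {n : ℕ} {ζ : Qbar} (hζ : ζ ^ p ^ n = 1) :
    g ζ = ζ ^ (PadicInt.toZModPow n (cyc p g)).val := by
  have : ∀ i, HasEnoughRootsOfUnity Qbar (p ^ i) := enoughRoots p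
  exact cyclotomicCharacter.spec p (MulSemiringAction.toRingAut GalQ Qbar g) ζ hζ

theorem toZModPow_cyc_eq (g : GalQ) {n m : ℕ}
    (h : ∀ ζ : Qbar, ζ ^ p ^ n = 1 → g ζ = ζ ^ m) : PadicInt.toZModPow n (cyc p g) = m := by
  have := enoughRoots p n
  have := primePow_ne_zero p n
  obtain ⟨ζ, hζ⟩ := HasEnoughRootsOfUnity.exists_primitiveRoot Qbar (p ^ n)
  have hpow := (apply_rootOfUnity p g hζ.pow_eq_one).symm.trans (h ζ hζ.pow_eq_one)
  rw [← ZMod.natCast_zmod_val (PadicInt.toZModPow n (cyc p g)), ZMod.natCast_eq_natCast_iff]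
  have := (hζ.isOfFinOrder (NeZero.ne _)).pow_eq_pow_iff_modEq.mp hpow
  rwa [← hζ.eq_orderOf] at this

theorem toZModPow_cyc_congr {g h : GalQ} {n : ℕ}
    (hgh : ∀ ζ : Qbar, ζ ^ p ^ n = 1 → g ζ = h ζ) :
    PadicInt.toZModPow n (cyc p g) = PadicInt.toZModPow n (cyc p h) := by
  have := primePow_ne_zero p n
  rw [toZModPow_cyc_eq p g (m := (PadicInt.toZModPow n (cyc p h)).val)
    fun ζ hζ => (hgh ζ hζ).trans (apply_rootOfUnity p h hζ), ZMod.natCast_zmod_val]

theorem cyc_eq_natCast {g : GalQ} {m : ℕ}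
    (h : ∀ (n : ℕ) (ζ : Qbar), ζ ^ p ^ n = 1 → g ζ = ζ ^ m) : cyc p g = m := by
  refine PadicInt.ext_of_toZModPow.mp fun n => ?_
  rw [toZModPow_cyc_eq p g (h n), map_natCast]

/-- The cyclotomic character of a Frobenius at `ℓ ≠ p` is `ℓ`. -/
theorem cyc_frobenius {A : ValuationSubring Qbar} {σ : GalQ} {ℓ : ℕ} (hℓ : ℓ.Prime)
    (hℓp : ℓ ≠ p) (hA : A.LiesOverPrime ℓ) (hσ : A.IsFrobeniusAt σ ℓ) : cyc p σ = ℓ :=
  cyc_eq_natCast p fun _n _ζ hζ =>
    FLTAgent.Density.isFrobeniusAt_apply_of_pow_eq_one hℓ hA hσ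
      (fun hd => hℓp ((Nat.prime_dvd_prime_iff_eq hℓ hp.out).mp (hℓ.dvd_of_dvd_pow hd))) hζ

/-- Inertia at `q` fixes the roots of unity of order prime to `q`. -/
theorem inertia_apply_rootOfUnity {A : ValuationSubring Qbar} {σ : GalQ} {q : ℕ} (hq : q.Prime)
    (hA : A.LiesOverPrime q) (hσ : σ ∈ A.inertiaSubgroupIn ℚ) {m : ℕ} (hm : ¬ q ∣ m) {ζ : Qbar}
    (hζ : ζ ^ m = 1) : σ ζ = ζ := by
  obtain ⟨hd, hc⟩ := FLTAgent.Density.mem_inertiaSubgroupIn_iff.mp hσ
  have hm0 : m ≠ 0 := by rintro rfl; exact hm (dvd_zero q)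
  have hζ0 : ζ ≠ 0 := by
    rintro rfl
    rw [zero_pow hm0] at hζ
    exact zero_ne_one hζ
  have hζA : ζ ∈ A := FLTAgent.Density.mem_of_isIntegral A
    (IsIntegral.of_pow (Nat.pos_of_ne_zero hm0) (hζ ▸ isIntegral_one))
  have hζiA : ζ⁻¹ ∈ A := FLTAgent.Density.mem_of_isIntegral A
    (IsIntegral.of_pow (Nat.pos_of_ne_zero hm0)
      (by rw [inv_pow, hζ, inv_one]; exact isIntegral_one))
  set η := σ ζ * ζ⁻¹ with hη
  have hηm : η ^ m = 1 := by
    rw [hη, mul_pow, ← map_pow, hζ, map_one, inv_pow, hζ, inv_one, one_mul]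
  have hηA : η ∈ A := A.toSubring.mul_mem
    ((FLTAgent.Density.apply_mem_iff hd ζ).mpr hζA) hζiA
  have hη1 : η - 1 ∈ A.nonunits := by
    have h1 := hc ζ hζA
    rw [ValuationSubring.mem_nonunits_iff_exists_mem_maximalIdeal] at h1 ⊢
    obtain ⟨hmem, hmax⟩ := h1
    have e : η - 1 = (σ ζ - ζ) * ζ⁻¹ := by rw [hη, sub_mul, mul_inv_cancel₀ hζ0]
    refine ⟨e ▸ A.toSubring.mul_mem hmem hζiA, ?_⟩
    convert Ideal.mul_mem_right ⟨ζ⁻¹, hζiA⟩ _ hmax using 1
    exact Subtype.ext e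
  by_contra hne
  have hne1 : η ≠ 1 := fun h => hne (by
    have := congrArg (fun x => x * ζ) h
    simpa [hη, mul_assoc, inv_mul_cancel₀ hζ0] using this)
  refine FLTAgent.Density.natCast_notMem_nonunits hq hA hm ?_
  rw [ValuationSubring.mem_nonunits_iff_exists_mem_maximalIdeal] at hη1 ⊢
  obtain ⟨_, hmax⟩ := hη1
  refine ⟨by exact natCast_mem A.toSubring m, ?_⟩
  rw [← IsLocalRing.residue_eq_zero_iff]
  have hres : IsLocalRing.residue A ⟨η, hηA⟩ = 1 := by
    rw [← sub_eq_zero, ← map_one (IsLocalRing.residue A), ← map_sub,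
      IsLocalRing.residue_eq_zero_iff]
    convert hmax using 1; exact Subtype.ext rfl
  have hgeom : ∑ i ∈ Finset.range m, (⟨η, hηA⟩ : A) ^ i = 0 := by
    have h0 := geom_sum_mul (⟨η, hηA⟩ : A) m
    have hz : (⟨η, hηA⟩ : A) ^ m - 1 = 0 := by
      apply Subtype.ext
      simp [hηm]
    rw [hz] at h0
    refine (mul_eq_zero.mp h0).resolve_right fun h1 => hne1 ?_
    simpa [sub_eq_zero] using congrArg Subtype.val h1
  have := congrArg (IsLocalRing.residue A) hgeom
  rw [map_sum, map_zero] at this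
  simp only [map_pow, hres, one_pow, Finset.sum_const, Finset.card_range, nsmul_eq_mul,
    mul_one] at this
  rw [← this]
  exact map_natCast (IsLocalRing.residue A) m

/-- The cyclotomic character is trivial on inertia at `q ≠ p`. -/
theorem cyc_inertia {A : ValuationSubring Qbar} {σ : GalQ} {q : ℕ} (hq : q.Prime) (hqp : q ≠ p)
    (hA : A.LiesOverPrime q) (hσ : σ ∈ A.inertiaSubgroupIn ℚ) : cyc p σ = 1 := by
  rw [← Nat.cast_one]
  refine cyc_eq_natCast p fun n ζ hζ => ?_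
  rw [pow_one]
  exact inertia_apply_rootOfUnity hq hA hσ
    (fun hd => hqp ((Nat.prime_dvd_prime_iff_eq hq hp.out).mp (hq.dvd_of_dvd_pow hd))) hζ

/-- The cyclotomic character of complex conjugation is `-1`. -/
theorem cyc_complexConjugation : cyc p complexConjugation = -1 := by
  refine PadicInt.ext_of_toZModPow.mp fun n => ?_
  have := primePow_ne_zero p n
  rw [toZModPow_cyc_eq p complexConjugation (m := p ^ n - 1) fun ζ hζ => ?_, map_neg, map_one,
    Nat.cast_sub (Nat.one_le_pow _ _ hp.out.pos), ZMod.natCast_self, Nat.cast_one, zero_sub]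
  apply complexEmbedding.toRingHom.injective
  change complexEmbedding (complexConjugation ζ) = complexEmbedding (ζ ^ (p ^ n - 1))
  rw [complexEmbedding_complexConjugation, map_pow]
  have h1 : complexEmbedding ζ ^ p ^ n = 1 := by rw [← map_pow, hζ, map_one]
  have hnorm : ‖complexEmbedding ζ‖ = 1 :=
    Complex.norm_eq_one_of_pow_eq_one h1 (pow_ne_zero _ hp.out.ne_zero)
  rw [← Complex.inv_eq_conj hnorm]
  refine inv_eq_of_mul_eq_one_right ?_
  rw [← pow_succ', Nat.sub_add_cancel (Nat.one_le_pow _ _ hp.out.pos), h1]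

end FLTAgent.GaloisAttach
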