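import Fermat.Agent.ModularityLifting.TraceRep
import Mathlib.Tactic.FieldSimp

/-!
# Realising two-dimensional pseudo-representations with a split element

If `f : G → K` is a trace function with determinant `ε` over a field and `γ : G` has distinct
eigenvalues `α ≠ β` in `K` (i.e. `α + β = f γ`, `α β = ε γ`), then `f` is the trace of an explicit
homomorphism `G → GL₂(K)` of determinant `ε`, with entries bounded in terms of `f`.
-/

set_option autoImplicit false

namespace FLTAgent.GaloisAttach

open FLTAgent.ModularityLifting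

variable {G K : Type*} [Group G] [Field K]

/-- The realisation data produced by the construction. -/
structure Realization (f : G → K) (ε : G →* K) (O : Subring K) where
  M : G →* Matrix (Fin 2) (Fin 2) K
  trace_eq : ∀ g, (M g).trace = f g
  det_eq : ∀ g, (M g).det = ε g
  bound : K
  bound_ne : bound ≠ 0
  bound_mem : ∀ (𝔞 : AddSubgroup K), (∀ o ∈ O, ∀ x ∈ 𝔞, o * x ∈ 𝔞) →
    ∀ h, (∀ y, f (y * h) - f y ∈ 𝔞) → ∀ i j, bound * (M h - 1) i j ∈ 𝔞

variable {f : G → K} {ε : G →* K} (hf : IsPseudoRep f ε) (γ : G) {α β u : K}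

local notation "a" => frameA f γ β u
local notation "X" => frameX f γ β u

include hf

theorem key_bound {O : Subring K} (hα : α ∈ O) (hβ : β ∈ O) (hfO : ∀ g, f g ∈ O)
    {𝔞 : AddSubgroup K} (h𝔞 : ∀ o ∈ O, ∀ x ∈ 𝔞, o * x ∈ 𝔞) (hu : (α - β) * u = 1)
    (hone : a 1 = 1) {h : G} (hh : ∀ y, f (y * h) - f y ∈ 𝔞) :
    (α - β) * (a h - 1) ∈ 𝔞 ∧ (α - β) * (f h - a h - 1) ∈ 𝔞 ∧
      ∀ y, (α - β) ^ 2 * X h y ∈ 𝔞 ∧ (α - β) ^ 2 * X y h ∈ 𝔞 := by
  have hD : α - β ∈ O := sub_mem hα hβ
  have key : ∀ x, (α - β) * a x = f (γ * x) - β * f x := fun x => by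
    simp only [frameA]; linear_combination (f (γ * x) - β * f x) * hu
  have hA : ∀ y, (α - β) * a y ∈ O := fun y => key y ▸ sub_mem (hfO _) (mul_mem hβ (hfO _))
  have hsub : ∀ y z, (α - β) * (a (y * h * z) - a (y * z)) ∈ 𝔞 := fun y z => by
    have hz : ∀ x, f (x * h * z) - f (x * z) ∈ 𝔞 := fun x => by
      rw [hf.comm z (x * h), hf.comm z x, ← mul_assoc]; exact hh (z * x)
    rw [mul_sub, key, key, show f (γ * (y * h * z)) - β * f (y * h * z) -
      (f (γ * (y * z)) - β * f (y * z)) = (f (γ * y * h * z) - f (γ * y * z))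
        - β * (f (y * h * z) - f (y * z)) by simp only [mul_assoc]; ring]
    exact sub_mem (hz _) (h𝔞 β hβ _ (hz y))
  have k1 : (α - β) * (a h - 1) ∈ 𝔞 := by simpa [hone] using hsub 1 1
  have k2 : (α - β) * (f h - a h - 1) ∈ 𝔞 := by
    have h3 := hh 1
    rw [one_mul, hf.one] at h3
    rw [show (α - β) * (f h - a h - 1) = (α - β) * (f h - 2) - (α - β) * (a h - 1) by ring]
    exact sub_mem (h𝔞 _ hD _ h3) k1
  refine ⟨k1, k2, fun y => ⟨?_, ?_⟩⟩
  · have h3 := hsub 1 y
    rw [one_mul, one_mul] at h3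
    rw [show (α - β) ^ 2 * X h y = (α - β) * ((α - β) * (a (h * y) - a y))
          - ((α - β) * a y) * ((α - β) * (a h - 1)) by simp only [frameX]; ring]
    exact sub_mem (h𝔞 _ hD _ h3) (h𝔞 _ (hA y) _ k1)
  · have h3 := hsub y 1
    rw [mul_one, mul_one] at h3
    rw [show (α - β) ^ 2 * X y h = (α - β) * ((α - β) * (a (y * h) - a y))
          - ((α - β) * a y) * ((α - β) * (a h - 1)) by simp only [frameX]; ring]
    exact sub_mem (h𝔞 _ hD _ h3) (h𝔞 _ (hA y) _ k1)

omit u in
/-- A trace function with a split element is the trace of a representation, with entries that are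
bounded and continuous in terms of the trace function. -/
theorem exists_realization (hne : α ≠ β) (hsum : α + β = f γ) (hprod : α * β = ε γ) (O : Subring K)
    (hα : α ∈ O) (hβ : β ∈ O) (hfO : ∀ g, f g ∈ O) : Nonempty (Realization f ε O) := by
  have hdel : α - β ≠ 0 := sub_ne_zero.mpr hne
  have hD : α - β ∈ O := sub_mem hα hβ
  set u := (α - β)⁻¹
  have hu : (α - β) * u = 1 := mul_inv_cancel₀ hdel
  have hone : frameA f γ β u 1 = 1 := by
    simp only [frameA, mul_one, hf.one]
    linear_combination hu - u * hsum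
  by_cases hX : ∃ r s, frameX f γ β u s r ≠ 0
  · obtain ⟨r, s, hx⟩ := hX
    let F : Frame f ε := ⟨γ, α, β, u, r, s, _, hsum, hprod, hu, mul_inv_cancel₀ hx⟩
    refine ⟨{
      M := F.rep hf
      trace_eq := F.trace_rep hf
      det_eq := F.det_rep hf
      bound := (α - β) ^ 4 * frameX f γ β u s r
      bound_ne := mul_ne_zero (pow_ne_zero _ hdel) hx
      bound_mem := ?_ }⟩
    intro 𝔞 h𝔞 h hh i j
    have hXsr : (α - β) ^ 2 * frameX f γ β u s r ∈ O :=
      ((key_bound hf γ hα hβ hfO (𝔞 := O.toAddSubgroup) (fun o ho x hx => O.mul_mem ho hx) hu hone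
        (h := r) (fun y => sub_mem (hfO _) (hfO _))).2.2 s).2
    obtain ⟨k1, k2, k3⟩ := key_bound hf γ hα hβ hfO h𝔞 hu hone hh
    fin_cases i <;> fin_cases j <;>
      simp only [F, Frame.rep_apply, Frame.b, Frame.d, Fin.zero_eta, Fin.mk_one, Fin.isValue,
        Matrix.sub_apply, Matrix.of_apply, Matrix.cons_val', Matrix.cons_val_zero,
        Matrix.cons_val_one, Matrix.cons_val_fin_one, Matrix.one_apply_eq, ne_eq, zero_ne_one,
        one_ne_zero, not_false_eq_true, Matrix.one_apply_ne, sub_zero]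
    · convert h𝔞 _ (O.mul_mem hD hXsr) _ k1 using 1; ring
    · convert h𝔞 _ hXsr _ (k3 r).1 using 1; ring
    · convert h𝔞 _ (O.mul_mem hD hD) _ (k3 s).2 using 1
      field_simp
    · convert h𝔞 _ (O.mul_mem hD hXsr) _ k2 using 1; ring
  · push Not at hX
    have hmul : ∀ h k, frameA f γ β u (h * k) = frameA f γ β u h * frameA f γ β u k :=
      fun h k => sub_eq_zero.mp (hX k h)
    have hde : ∀ h, f h - frameA f γ β u h = ε h * frameA f γ β u h⁻¹ := fun h => by
      have h1 := hf.mul γ h
      have h2 := hf.mul 1 h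
      rw [one_mul, one_mul, hf.one] at h2
      simp only [frameA]
      linear_combination -u * h1 + u * β * h2 + u * f h * hsum - f h * hu
    refine ⟨{
      M := ⟨⟨fun h => !![frameA f γ β u h, 0; 0, f h - frameA f γ β u h], by
          ext i j; fin_cases i <;> fin_cases j <;> simp [hone, hf.one]
          norm_num⟩, fun h k => by
          ext i j; fin_cases i <;> fin_cases j <;>
            simp [Matrix.mul_apply, Fin.sum_univ_two, hmul, hde]
          rw [← hmul h k, hde, map_mul, mul_inv_rev, hmul]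
          ring⟩
      trace_eq := fun g => by simp [Matrix.trace_fin_two]
      det_eq := fun g => by
        simp only [MonoidHom.coe_mk, OneHom.coe_mk, Matrix.det_fin_two_of, hde]
        have := hmul g g⁻¹
        rw [mul_inv_cancel, hone] at this
        linear_combination -(ε g) * this
      bound := (α - β) ^ 4
      bound_ne := pow_ne_zero _ hdel
      bound_mem := ?_ }⟩
    intro 𝔞 h𝔞 h hh i j
    obtain ⟨k1, k2, -⟩ := key_bound hf γ hα hβ hfO h𝔞 hu hone hh
    fin_cases i <;> fin_cases j <;>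
      simp only [MonoidHom.coe_mk, OneHom.coe_mk, Fin.zero_eta, Fin.mk_one,
        Fin.isValue, Matrix.sub_apply, Matrix.of_apply, Matrix.cons_val', Matrix.cons_val_zero,
        Matrix.cons_val_one, Matrix.cons_val_fin_one, Matrix.one_apply_eq, ne_eq, zero_ne_one,
        one_ne_zero, not_false_eq_true, Matrix.one_apply_ne, sub_zero, mul_zero]
    · convert h𝔞 _ (pow_mem hD 3) _ k1 using 1; ring
    · exact zero_mem 𝔞
    · exact zero_mem 𝔞
    · convert h𝔞 _ (pow_mem hD 3) _ k2 using 1; ring

end FLTAgent.GaloisAttach
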