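import Fermat.Agent.GaloisAttach.TraceFun
import Fermat.Agent.GaloisAttach.Cyclotomic
import Fermat.Agent.GaloisAttach.Inputs
import Fermat.Agent.GaloisAttach.Realize

/-!
# The trace function attached to a system of Hecke eigenvalues

From the Jacobian inputs at `p`, `exists_attachedTrace_link` builds an `AttachedTrace` (a
two-dimensional trace function with Frobenius, inertia, continuity and conjugation properties)
together with its link `TraceLink` to the torsion of `J₀(N)`.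
-/

set_option autoImplicit false

noncomputable section

namespace FLTAgent.GaloisAttach

open ModularCurve
open FLTAgent.Density (GalQ Qbar)

/-- The primes whose Hecke operators are used. -/
abbrev GoodPrime (N : ℕ) (S : Set ℕ) : Type := {ℓ : Nat.Primes // ¬ (ℓ : ℕ) ∣ N ∧ (ℓ : ℕ) ∉ S}

/-- The polynomial ring on the good primes. -/
abbrev GoodRing (N : ℕ) (S : Set ℕ) : Type := MvPolynomial (GoodPrime N S) ℤ

/-- Inclusion into the formal Hecke algebra. -/
def goodIncl (N : ℕ) (S : Set ℕ) : GoodRing N S →+* HeckeAlg :=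
  (MvPolynomial.aeval fun i : GoodPrime N S => heckeGen i.1).toRingHom

/-- The map to the Hecke algebra of cusp forms. -/
def goodTheta (N : ℕ) [NeZero N] (S : Set ℕ) : GoodRing N S →+* CuspForm.heckeAlgebra N 2 S :=
  MvPolynomial.eval₂Hom (Int.castRingHom _)
    fun i => CuspForm.heckeAlgebra.T i.1.2 i.2.1 i.2.2

/-- Saturation bound in a finitely generated abelian group. -/
theorem exists_saturation_bound {E : Type*} [AddCommGroup E] [Module.Finite ℤ E]
    (p : ℕ) (M : Submodule ℤ E) :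
    ∃ c : ℕ, ∀ (n : ℕ) (u : E), (p ^ n) • u ∈ M → (p ^ c) • u ∈ M := by
  let F : ℕ →o Submodule ℤ E :=
    { toFun := fun n => M.comap (LinearMap.lsmul ℤ E ((p : ℤ) ^ n))
      monotone' := fun m n hmn u hu => by
        obtain ⟨d, rfl⟩ := Nat.exists_eq_add_of_le hmn
        simp only [Submodule.mem_comap, LinearMap.lsmul_apply] at hu ⊢
        rw [pow_add, mul_comm, mul_smul]
        exact M.smul_mem _ hu }
  have : IsNoetherian ℤ E := isNoetherian_of_isNoetherianRing_of_finite ℤ E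
  obtain ⟨c, hc⟩ := monotone_stabilizes_iff_noetherian.mpr inferInstance F
  refine ⟨c, fun n u hu => ?_⟩
  have hmem : ∀ m, u ∈ F m ↔ (p ^ m) • u ∈ M := fun m => by
    show ((p : ℤ) ^ m) • u ∈ M ↔ (p ^ m) • u ∈ M
    rw [← natCast_zsmul, Nat.cast_pow]
  have h1 : u ∈ F (max n c) := F.monotone (le_max_left n c) ((hmem n).mpr hu)
  rw [← hc (max n c) (le_max_right n c)] at h1
  exact (hmem c).mp h1

theorem exists_endo_of_divisible {Λ : Type*} [AddCommGroup Λ] [Module.Free ℤ Λ]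
    (φ : Module.End ℤ Λ) (m : ℕ) (h : ∀ v, ∃ w, φ v = m • w) :
    ∃ u : Module.End ℤ Λ, φ = m • u := by
  choose w hw using h
  let b := Module.Free.chooseBasis ℤ Λ
  refine ⟨b.constr ℤ fun i => w (b i), b.ext fun i => ?_⟩
  rw [LinearMap.smul_apply, Module.Basis.constr_basis]
  exact hw (b i)

variable {N : ℕ} [NeZero N] {p : ℕ} {S : Set ℕ}

theorem exists_kill_bound (hkill : KillLattice N p) (S : Set ℕ) :
    letI := heckeModuleBar N
    ∃ c, ∀ (k : ℕ) (r : GoodRing N S),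
      (∀ x : JZero N, (p ^ (k + c)) • x = 0 → goodIncl N S r • x = 0) →
        ∃ r', goodTheta N S r = (p ^ k) • goodTheta N S r' := by
  let := heckeModuleBar N
  obtain ⟨Λ, _, _, _, Φ, ev, hev, hker, hdiv⟩ := hkill
  have hcompat : ∀ r, ev (goodIncl N S r) =
      (goodTheta N S r : Module.End ℂ (CuspForm (CongruenceSubgroup.Gamma0 N) 2)) := by
    intro r
    have h : ev.comp (goodIncl N S) =
        (CuspForm.heckeAlgebra N 2 S).val.toRingHom.comp (goodTheta N S) := by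
      refine MvPolynomial.ringHom_ext (fun a => ?_) fun i => ?_
      · simp [goodIncl, goodTheta, ← MvPolynomial.algebraMap_eq]
      · simp [goodIncl, goodTheta, hev i.1 i.2.1]
    exact RingHom.congr_fun h r
  have : Module.Finite ℤ (Module.End ℤ Λ) := inferInstance
  let M : Submodule ℤ (Module.End ℤ Λ) :=
    LinearMap.range ((Φ.comp (goodIncl N S)).toAddMonoidHom.toIntLinearMap)
  obtain ⟨c, hc⟩ := exists_saturation_bound p M
  refine ⟨c, fun k r hr => ?_⟩
  obtain ⟨u, hu⟩ := exists_endo_of_divisible _ _ (hdiv (k + c) _ hr)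
  obtain ⟨r', hr'⟩ := hc (k + c) u ⟨r, hu⟩
  refine ⟨r', ?_⟩
  have hr'' : Φ (goodIncl N S r') = (p ^ c) • u := hr'
  have h0 : Φ (goodIncl N S (r - (p ^ k) • r')) = 0 := by
    rw [map_sub, map_nsmul, map_sub, map_nsmul, hr'', hu, pow_add, mul_nsmul', sub_self]
  have h1 := hker _ h0
  rw [hcompat, map_sub, map_nsmul] at h1
  exact sub_eq_zero.mp (Subtype.ext h1)

/-- A trace function attached to the eigenvalue system `χ`. -/
structure AttachedTrace (N : ℕ) [NeZero N] (p : ℕ) (S : Set ℕ) {A : Type} [CommRing A]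
    (I : Ideal A) (χ : CuspForm.heckeAlgebra N 2 S →+* A) where
  f : GalQ → A
  ε : GalQ →* A
  one : f 1 = 2
  comm : ∀ x y, f (y * x) = f (x * y)
  mul : ∀ x y, f (x * y) + ε y * f (x * y⁻¹) = f x * f y
  frob : ∀ (ℓ : ℕ) (hℓ : ℓ.Prime) (hℓN : ¬ ℓ ∣ N) (hℓS : ℓ ∉ S), ℓ ≠ p →
    ∀ A' : ValuationSubring Qbar, A'.LiesOverPrime ℓ → ∀ σ : GalQ, A'.IsFrobeniusAt σ ℓ →
      f σ = χ (CuspForm.heckeAlgebra.T hℓ hℓN hℓS) ∧ ε σ = ℓ
  inertia : ∀ q : ℕ, q.Prime → ¬ q ∣ N * p → ∀ A' : ValuationSubring Qbar, A'.LiesOverPrime q →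
    ∀ σ ∈ A'.inertiaSubgroupIn ℚ, ε σ = 1 ∧ ∀ y, f (y * σ) = f y
  continuous : ∀ k : ℕ, ∃ L : IntermediateField ℚ Qbar, FiniteDimensional ℚ L ∧
    ∀ σ : GalQ, (∀ x ∈ L, σ x = x) → ε σ - 1 ∈ I ^ k ∧ ∀ y, f (y * σ) - f y ∈ I ^ k
  conj : f complexConjugation = 0 ∧ ε complexConjugation = -1

omit [NeZero N] in
/-- A finite Galois extension controlling `J[p^k]` and `μ_{p^k}`. -/
theorem exists_level {k : ℕ} (hfin : {x : JZero N | (p ^ k) • x = 0}.Finite)
    (hst : OpenStabilizers N)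
    (hp : p ≠ 0) :
    ∃ L : IntermediateField ℚ Qbar, FiniteDimensional ℚ L ∧ IsGalois ℚ L ∧
      ∀ σ : GalQ, (∀ y ∈ L, σ y = y) →
        (∀ x : JZero N, (p ^ k) • x = 0 → σ • x = x) ∧ ∀ ζ : Qbar, ζ ^ p ^ k = 1 → σ ζ = ζ := by
  classical
  choose L hLfd hL using hst
  let T := hfin.toFinset
  let L₀ : IntermediateField ℚ Qbar :=
    (⨆ x : T, L x) ⊔ IntermediateField.adjoin ℚ {ζ : Qbar | ζ ^ p ^ k = 1}
  have : ∀ x : T, FiniteDimensional ℚ (L x) := fun x => hLfd x
  have hroots : {ζ : Qbar | ζ ^ p ^ k = 1}.Finite := by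
    refine ((Polynomial.nthRootsFinset (p ^ k) (1 : Qbar)).finite_toSet).subset fun ζ hζ => ?_
    exact Finset.mem_coe.mpr ((Polynomial.mem_nthRootsFinset
      (Nat.pos_of_ne_zero (pow_ne_zero k hp)) 1).mpr hζ)
  have : FiniteDimensional ℚ (IntermediateField.adjoin ℚ {ζ : Qbar | ζ ^ p ^ k = 1}) :=
    haveI := hroots.to_subtype
    IntermediateField.finiteDimensional_adjoin fun x _ => Algebra.IsIntegral.isIntegral x
  have : FiniteDimensional ℚ L₀ := by
    have := IntermediateField.finiteDimensional_iSup_of_finite (t := fun x : T => L x)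
    exact IntermediateField.finiteDimensional_sup _ _
  have : Normal ℚ (IntermediateField.normalClosure ℚ L₀ Qbar) := normalClosure.normal ℚ L₀ Qbar
  refine ⟨IntermediateField.normalClosure ℚ L₀ Qbar, inferInstance, IsGalois.mk,
    fun σ hσ => ⟨fun x hx => hL x σ fun y hy => ?_, fun ζ hζ => ?_⟩⟩
  · refine hσ y (IntermediateField.le_normalClosure L₀ (le_sup_left (a := ⨆ x : T, L x) ?_))
    exact (le_iSup (fun x : T => L x) ⟨x, hfin.mem_toFinset.mpr hx⟩) hy
  · exact hσ ζ (IntermediateField.le_normalClosure L₀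
      (le_sup_right (a := ⨆ x : T, L x) (IntermediateField.subset_adjoin ℚ _ hζ)))

/-- `t` is a witness for the trace of `g` on `J₀(N)[p^k]`. -/
def IsWitness [Fact p.Prime] (k : ℕ) (g : GalQ) (t : GoodRing N S) : Prop :=
  letI := heckeModuleBar N
  ∀ x : JZero N, (p ^ k) • x = 0 →
    g • x + chiNat (cyc p) k g • g⁻¹ • x = goodIncl N S t • x

/-- The relation between an attached trace function and the torsion of `J₀(N)`. -/
structure TraceLink [Fact p.Prime] {A : Type} [CommRing A] {I : Ideal A} [IsAdicComplete I A]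
    {χ : CuspForm.heckeAlgebra N 2 S →+* A} (hpI : (p : A) ∈ I)
    (T : AttachedTrace N p S I χ) (c : ℕ) : Prop where
  det_eq : ∀ g, T.ε g = padicTo hpI (cyc p g)
  exists_wit : ∀ (k : ℕ) (g : GalQ), ∃ t : GoodRing N S, IsWitness (p := p) k g t
  spec : ∀ (k : ℕ) (g : GalQ) (t : GoodRing N S), IsWitness (p := p) (k + c) g t →
    χ (goodTheta N S t) - T.f g ∈ I ^ k
  kill : ∀ (k : ℕ) (t : GoodRing N S),
    (letI := heckeModuleBar N; ∀ x : JZero N, (p ^ (k + c)) • x = 0 → goodIncl N S t • x = 0) →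
      χ (goodTheta N S t) ∈ I ^ k

/-- Existence of the attached trace function, with its link to the torsion of `J₀(N)`. -/
theorem exists_attachedTrace_link [Fact p.Prime] (hJ : JacobianInputs N p)
    (hF : FrobeniusDivisions)
    {S : Set ℕ} (hS : S.Finite) {A : Type} [CommRing A] (I : Ideal A) [IsAdicComplete I A]
    (hpI : (p : A) ∈ I) (χ : CuspForm.heckeAlgebra N 2 S →+* A) :
    ∃ (T : AttachedTrace N p S I χ) (c : ℕ), TraceLink hpI T c := by
  classical
  have hp : p.Prime := Fact.out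
  let := heckeModuleBar N
  have := hJ.smulComm
  obtain ⟨c, hc⟩ := exists_kill_bound hJ.kill S
  choose L hLfd hLgal hL using fun k => exists_level (hJ.finite_torsion k) hJ.stab hp.ne_zero
  let : Module (GoodRing N S) (JZero N) := Module.compHom (JZero N) (goodIncl N S)
  have : SMulCommClass GalQ (GoodRing N S) (JZero N) :=
    ⟨fun g r x => (smul_comm g (goodIncl N S r) x : _)⟩
  have hquad : ∀ (i : GoodPrime N S), (i.1 : ℕ) ≠ p → ∀ A' : ValuationSubring Qbar,
      A'.LiesOverPrime (i.1 : ℕ) → ∀ σ : GalQ, A'.IsFrobeniusAt σ (i.1 : ℕ) →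
        ∀ (k : ℕ) (x : JZero N), (p ^ k) • x = 0 →
          σ • σ • x - (MvPolynomial.X i : GoodRing N S) • σ • x + (i.1 : ℕ) • x = 0 := by
    intro i hip A' hA σ hσ k x hx
    have hnd : ¬ (i.1 : ℕ) ∣ N * p := fun hd => ((Nat.Prime.dvd_mul i.1.2).mp hd).elim i.2.1
      fun h => hip ((Nat.prime_dvd_prime_iff_eq i.1.2 hp).mp h)
    obtain ⟨J', _, _, sp, F, hsp, hrel⟩ := hJ.specialization (i.1 : ℕ) i.1.2 hnd A' hA
    have hX : (MvPolynomial.X i : GoodRing N S) • σ • x = heckeGen i.1 • σ • x :=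
      congrArg (fun t : HeckeAlg => t • σ • x) (by simp [goodIncl])
    rw [hX]
    refine hsp.injective_torsion _ ⟨k, ?_⟩ ?_
    · have hσ0 : ∀ y : JZero N, (p ^ k) • y = 0 → (p ^ k) • σ • y = 0 := fun y hy =>
        pow_nsmul_smul_zero σ hy
      rw [nsmul_add, nsmul_sub, hσ0 _ (hσ0 _ hx), ← nsmul_left_comm, hx, nsmul_zero,
        smul_comm (p ^ k) (heckeGen i.1), hσ0 _ hx, smul_zero, sub_zero, add_zero]
    · rw [map_add, map_sub, map_nsmul, hsp.hecke_comm, hsp.frobenius_comm σ hσ,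
        hsp.frobenius_comm σ hσ]
      exact hrel (sp x)
  have hagree : ∀ {k : ℕ} {g h : GalQ}, (∀ y ∈ L k, g y = h y) →
      (∀ x : JZero N, (p ^ k) • x = 0 → g • x = h • x) ∧
        PadicInt.toZModPow k (cyc p g) = PadicInt.toZModPow k (cyc p h) := by
    intro k g h hgh
    have hfix : ∀ y ∈ L k, (h⁻¹ * g) y = y := fun y hy => by
      rw [AlgEquiv.mul_apply, hgh y hy]
      exact h.symm_apply_apply y
    refine ⟨fun x hx => ?_, toZModPow_cyc_congr p fun ζ hζ => ?_⟩
    · have := (hL k (h⁻¹ * g) hfix).1 x hx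
      rwa [mul_smul, inv_smul_eq_iff] at this
    · have := (hL k (h⁻¹ * g) hfix).2 ζ hζ
      rw [AlgEquiv.mul_apply] at this
      calc g ζ = h (h⁻¹ (g ζ)) := (h.apply_symm_apply _).symm
        _ = h ζ := by rw [this]
  have hfr : ∀ i : GoodPrime N S, (i.1 : ℕ) ≠ p → ∀ A' : ValuationSubring Qbar,
      A'.LiesOverPrime (i.1 : ℕ) → ∀ σ : GalQ, A'.IsFrobeniusAt σ (i.1 : ℕ) →
        cyc p σ = ((i.1 : ℕ) : ℤ_[p]) := fun i hip A' hA σ hσ => cyc_frobenius p i.1.2 hip hA hσ
  have hwit : ∀ (k : ℕ) (g : GalQ), ∃ t : GoodRing N S, IsWit (JZero N) (cyc p) k g t := by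
    intro k g
    have := hLfd k
    have := hLgal k
    obtain ⟨ℓ, hℓ, hℓS, A', hA, σ, hσ, j, hj⟩ :=
      hF (L k) g (hS.toFinset ∪ N.primeFactors ∪ {p})
    simp only [Finset.mem_union, Finset.mem_singleton, not_or, Set.Finite.mem_toFinset] at hℓS
    let i : GoodPrime N S :=
      ⟨⟨ℓ, hℓ⟩, fun h => hℓS.1.2 (Nat.mem_primeFactors.mpr ⟨hℓ, h, NeZero.ne N⟩), hℓS.1.1⟩
    have hχ := hfr i hℓS.2 A' hA σ hσ
    have hw : IsWit (JZero N) (cyc p) k σ (MvPolynomial.X i : GoodRing N S) :=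
      isWit_of_quadratic (n := (i.1 : ℕ)) (by rw [hχ, map_natCast])
        (hquad i hℓS.2 A' hA σ hσ k)
    obtain ⟨h1, h2⟩ := hagree hj
    exact ⟨_, (hw.pow (n := (i.1 : ℕ)) (by rw [hχ, map_natCast]) j).congr h1 h2⟩
  have H : TraceInput (JZero N) (cyc p) (χ.comp (goodTheta N S)) I c :=
    { p_mem := hpI
      exists_wit := hwit
      kill_mem := fun k t ht => by
        obtain ⟨t', ht'⟩ := hc k t ht
        rw [RingHom.comp_apply, ht', map_nsmul, nsmul_eq_mul, Nat.cast_pow]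
        exact Ideal.mul_mem_right _ _ (Ideal.pow_mem_pow hpI k) }
  refine ⟨{
    f := H.tr
    ε := H.det
    one := H.tr_one
    comm := H.tr_comm
    mul := H.tr_mul
    frob := ?_
    inertia := ?_
    continuous := ?_
    conj := ⟨H.tr_eq_zero_of_sq complexConjugation_mul_self (cyc_complexConjugation p),
      H.det_neg_one (cyc_complexConjugation p)⟩ }, c, ⟨fun _ => rfl, hwit,
      fun _ _ _ ht => H.tr_spec ht, fun k t ht => H.kill_mem k t ht⟩⟩
  · intro ℓ hℓ hℓN hℓS hℓp A' hA σ hσ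
    let i : GoodPrime N S := ⟨⟨ℓ, hℓ⟩, hℓN, hℓS⟩
    refine ⟨?_, H.det_natCast (cyc_frobenius p hℓ hℓp hA hσ)⟩
    rw [H.tr_of_quadratic (t := (MvPolynomial.X i : GoodRing N S))
      (hfr i hℓp A' hA σ hσ) (hquad i hℓp A' hA σ hσ)]
    simp [goodTheta, i]
  · intro q hq hqNp A' hA σ hσ
    have hqp : q ≠ p := fun h => hqNp (h ▸ dvd_mul_left p N)
    have hχ := cyc_inertia p hq hqp hA hσ
    obtain ⟨J', _, _, sp, F, hsp, -⟩ := hJ.specialization q hq hqNp A' hA
    refine ⟨H.det_eq_one hχ, fun y => ?_⟩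
    rw [H.tr_comm σ y]
    refine H.tr_mul_left_eq (fun k x hx => ?_) hχ y
    rw [← sub_eq_zero]
    refine hsp.injective_torsion _ ⟨k, ?_⟩ ?_
    · rw [nsmul_sub, pow_nsmul_smul_zero σ hx, hx, sub_zero]
    · rw [map_sub, hsp.inertia_comm σ hσ, sub_self]
  · intro k
    refine ⟨L (k + c), hLfd _, fun σ hσ => ?_⟩
    obtain ⟨h1, h2⟩ := hagree (g := σ) (h := 1) (k := k + c) (fun y hy => hσ y hy)
    refine ⟨?_, fun y => H.tr_congr (g := y) (h := y * σ) ?_ ?_⟩
    · have := H.det_congr (n := k + c) (g := 1) (h := σ) h2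
      rw [map_one] at this
      exact Ideal.pow_le_pow_right (Nat.le_add_right k c) this
    · intro x hx
      rw [mul_smul, h1 x hx, one_smul]
    · rw [map_mul, map_mul, h2, map_one, map_one, mul_one]

/-- Existence of the attached trace function. -/
theorem exists_attachedTrace (hp : p.Prime) (hJ : JacobianInputs N p) (hF : FrobeniusDivisions)
    {S : Set ℕ} (hS : S.Finite) {A : Type} [CommRing A] (I : Ideal A) [IsAdicComplete I A]
    (hpI : (p : A) ∈ I) (χ : CuspForm.heckeAlgebra N 2 S →+* A) :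
    Nonempty (AttachedTrace N p S I χ) :=
  haveI : Fact p.Prime := ⟨hp⟩
  ⟨(exists_attachedTrace_link hJ hF hS I hpI χ).choose⟩

end FLTAgent.GaloisAttach
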