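import Mathlib.NumberTheory.Padics.RingHoms
import Mathlib.RingTheory.AdicCompletion.RingHom
import Mathlib.RingTheory.AdicCompletion.Basic
import Mathlib.Data.ZMod.QuotientRing

/-!
# Trace functions from witnesses on torsion

`G` acts on an abelian group `J` commuting with a commutative ring `R`.  If every `g : G`
agrees on each `J[p^k]` with an element `t ∈ R` in the sense `g + χ(g) g⁻¹ = t`, and `lam : R → A`
sends annihilators of `J[p^(k+c)]` into `I^k`, then we get a function `G → A` satisfying the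
axioms of a 2-dimensional pseudo-representation with determinant `χ`.
-/

set_option autoImplicit false

namespace FLTAgent.GaloisAttach

section Scalar

variable {J : Type*} [AddCommGroup J] {p : ℕ}

/-- On `p ^ k`-torsion multiples only depend on the residue modulo `p ^ k`. -/
theorem nsmul_eq_of_natCast_eq {k : ℕ} {a b : ℕ} (h : (a : ZMod (p ^ k)) = b) {x : J}
    (hx : (p ^ k) • x = 0) : a • x = b • x := by
  rw [ZMod.natCast_eq_natCast_iff'] at h
  calc a • x = (a % p ^ k + p ^ k * (a / p ^ k)) • x := by rw [Nat.mod_add_div]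
    _ = (b % p ^ k + p ^ k * (b / p ^ k)) • x := by
      rw [add_smul, add_smul, mul_nsmul, mul_nsmul, hx, smul_zero, smul_zero, h]
    _ = b • x := by rw [Nat.mod_add_div]

end Scalar

section Cast

variable {A : Type*} [CommRing A] {I : Ideal A} {p : ℕ}

theorem natCast_sub_mem_pow (hpI : (p : A) ∈ I) {a b k : ℕ}
    (h : (a : ZMod (p ^ k)) = b) : (a : A) - b ∈ I ^ k := by
  have h' : ((a : ℤ) : ZMod (p ^ k)) = ((b : ℤ) : ZMod (p ^ k)) := by simpa using h
  rw [ZMod.intCast_eq_intCast_iff_dvd_sub] at h'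
  obtain ⟨c, hc⟩ := h'
  have h2 : (a : A) - b = -((p : A) ^ k * (c : A)) := by
    have := congrArg (fun z : ℤ => (z : A)) hc
    push_cast at this
    linear_combination -this
  rw [h2]
  exact neg_mem (Ideal.mul_mem_right _ _ (Ideal.pow_mem_pow hpI k))

variable [Fact p.Prime] [IsAdicComplete I A]

omit [Fact p.Prime] [IsAdicComplete I A] in
theorem natCast_pow_eq_zero (hpI : (p : A) ∈ I) (n : ℕ) :
    ((p ^ n : ℕ) : A ⧸ I ^ n) = 0 := by
  rw [← map_natCast (Ideal.Quotient.mk (I ^ n)), Ideal.Quotient.eq_zero_iff_mem, Nat.cast_pow]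
  exact Ideal.pow_mem_pow hpI n

/-- The reduction maps `ℤ_p → A / I^n`. -/
noncomputable def padicToQuot (hpI : (p : A) ∈ I) (n : ℕ) : ℤ_[p] →+* A ⧸ I ^ n :=
  ((Ideal.Quotient.lift (Ideal.span {((p ^ n : ℕ) : ℤ)}) (Int.castRingHom (A ⧸ I ^ n))
      fun a ha => by
        obtain ⟨c, rfl⟩ := Ideal.mem_span_singleton.mp ha
        rw [map_mul, map_natCast, natCast_pow_eq_zero hpI n, zero_mul]).comp
    (Int.quotientSpanNatEquivZMod (p ^ n)).symm.toRingHom).comp (PadicInt.toZModPow n)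

omit [IsAdicComplete I A] in
theorem padicToQuot_apply (hpI : (p : A) ∈ I) (n : ℕ) (z : ℤ_[p]) :
    padicToQuot hpI n z = (((PadicInt.toZModPow n z).val : ℕ) : A ⧸ I ^ n) := by
  have : NeZero (p ^ n) := ⟨pow_ne_zero _ (Fact.out : p.Prime).ne_zero⟩
  conv_lhs => rw [padicToQuot, RingHom.comp_apply, ← ZMod.natCast_zmod_val (PadicInt.toZModPow n z)]
  exact map_natCast _ _

omit [IsAdicComplete I A] in
theorem padicToQuot_compat (hpI : (p : A) ∈ I) {m n : ℕ} (hle : m ≤ n) :
    (Ideal.Quotient.factorPow I hle).comp (padicToQuot hpI n) = padicToQuot hpI m := by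
  refine RingHom.ext fun z => ?_
  have : NeZero (p ^ n) := ⟨pow_ne_zero _ (Fact.out : p.Prime).ne_zero⟩
  have : NeZero (p ^ m) := ⟨pow_ne_zero _ (Fact.out : p.Prime).ne_zero⟩
  rw [RingHom.comp_apply, padicToQuot_apply, padicToQuot_apply, map_natCast,
    ← map_natCast (Ideal.Quotient.mk (I ^ m)), ← map_natCast (Ideal.Quotient.mk (I ^ m)),
    Ideal.Quotient.eq]
  refine natCast_sub_mem_pow hpI ?_
  have h := RingHom.congr_fun (PadicInt.zmod_cast_comp_toZModPow (p := p) m n hle) z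
  rw [RingHom.comp_apply, ZMod.castHom_apply] at h
  rw [ZMod.natCast_zmod_val, ← h, ZMod.cast_eq_val]

/-- The canonical map `ℤ_p → A` for an `I`-adically complete `A` with `p ∈ I`. -/
noncomputable def padicTo (hpI : (p : A) ∈ I) : ℤ_[p] →+* A :=
  IsAdicComplete.liftRingHom I (padicToQuot hpI) (padicToQuot_compat hpI)

/-- The map from `ℤ_p` is congruent to the truncation modulo `I ^ n`. -/
theorem padicTo_sub_mem (hpI : (p : A) ∈ I) (n : ℕ) (z : ℤ_[p]) :
    padicTo hpI z - ((PadicInt.toZModPow n z).val : ℕ) ∈ I ^ n := by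
  rw [← Ideal.Quotient.eq, padicTo,
    IsAdicComplete.mk_liftRingHom I (padicToQuot hpI) (padicToQuot_compat hpI),
    padicToQuot_apply, map_natCast]

end Cast

section Wit

variable {G R J : Type*} [Group G] [CommRing R] [AddCommGroup J] [Module R J]
  [DistribMulAction G J] [SMulCommClass G R J]
variable {p : ℕ} [Fact p.Prime] (χ : G →* ℤ_[p])

/-- The natural representative of `χ g mod p^k`. -/
noncomputable def chiNat (k : ℕ) (g : G) : ℕ := (PadicInt.toZModPow k (χ g)).val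

/-- The truncated character has the residue of the character. -/
theorem natCast_chiNat (k : ℕ) (g : G) :
    ((chiNat χ k g : ℕ) : ZMod (p ^ k)) = PadicInt.toZModPow k (χ g) :=
  haveI : NeZero (p ^ k) := ⟨pow_ne_zero _ (Fact.out : p.Prime).ne_zero⟩
  ZMod.natCast_zmod_val _

variable (J) in
/-- `t` is a witness for the trace of `g` at level `p^k`. -/
def IsWit (k : ℕ) (g : G) (t : R) : Prop :=
  ∀ x : J, (p ^ k) • x = 0 → g • x + chiNat χ k g • g⁻¹ • x = t • x

variable {χ}

omit [SMulCommClass G R J] [Fact p.Prime] in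
/-- Galois preserves the `p ^ k`-torsion. -/
theorem pow_nsmul_smul_zero {k : ℕ} (g : G) {x : J} (hx : (p ^ k) • x = 0) :
    (p ^ k) • g • x = 0 := by
  rw [smul_comm (p ^ k) g x, hx, smul_zero]

omit [SMulCommClass G R J] in
theorem IsWit.mono {k k' : ℕ} (h : k ≤ k') {g : G} {t : R} (ht : IsWit J χ k' g t) :
    IsWit J χ k g t := by
  intro x hx
  obtain ⟨d, rfl⟩ := Nat.exists_eq_add_of_le h
  have hx' : (p ^ (k + d)) • x = 0 := by rw [pow_add, mul_nsmul, hx, smul_zero]
  rw [← ht x hx']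
  congr 1
  refine nsmul_eq_of_natCast_eq ?_ (pow_nsmul_smul_zero g⁻¹ hx)
  rw [natCast_chiNat]
  have hc := RingHom.congr_fun
    (PadicInt.zmod_cast_comp_toZModPow (p := p) k (k + d) (Nat.le_add_right k d)) (χ g)
  rw [RingHom.comp_apply, ← natCast_chiNat χ (k + d) g, map_natCast] at hc
  exact hc.symm

omit [SMulCommClass G R J] in
/-- A witness only depends on the action and the character modulo `p ^ k`. -/
theorem IsWit.congr {k : ℕ} {g h : G} {t : R} (ht : IsWit J χ k g t)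
    (hJ : ∀ x : J, (p ^ k) • x = 0 → h • x = g • x)
    (hχ : PadicInt.toZModPow k (χ h) = PadicInt.toZModPow k (χ g)) : IsWit J χ k h t := by
  intro x hx
  have hinv : h⁻¹ • x = g⁻¹ • x := by
    have hy : (p ^ k) • g⁻¹ • x = 0 := pow_nsmul_smul_zero g⁻¹ hx
    rw [inv_smul_eq_iff, hJ _ hy, smul_inv_smul]
  have hn : chiNat χ k h = chiNat χ k g := by rw [chiNat, chiNat, hχ]
  rw [← ht x hx, hJ x hx, hinv, hn]

omit [SMulCommClass G R J] in
theorem isWit_one (k : ℕ) : IsWit J χ k (1 : G) (2 : R) := by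
  intro x hx
  rw [inv_one, one_smul, two_smul]
  congr 1
  conv_rhs => rw [← one_nsmul x]
  refine nsmul_eq_of_natCast_eq ?_ hx
  rw [natCast_chiNat, map_one, map_one, Nat.cast_one]

/-- The key relation: witnesses multiply like traces. -/
theorem IsWit.mul {k : ℕ} {x y : G} {r s b : R} (hr : IsWit J χ k x r) (hs : IsWit J χ k y s)
    (hb : IsWit J χ k (x * y⁻¹) b) {n : ℕ} (hn : (n : ZMod (p ^ k)) = PadicInt.toZModPow k (χ y)) :
    IsWit J χ k (x * y) (r * s - n • b) := by
  intro v hv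
  have h1 : (r * s) • v = x • s • v + chiNat χ k x • x⁻¹ • s • v := by
    have hsv : (p ^ k) • s • v = 0 := by rw [smul_comm (p ^ k) s v, hv, smul_zero]
    rw [hr _ hsv, mul_smul]
  have h2 : s • v = y • v + chiNat χ k y • y⁻¹ • v := (hs v hv).symm
  have h3 : x⁻¹ • s • v = y • x⁻¹ • v + chiNat χ k y • y⁻¹ • x⁻¹ • v := by
    rw [smul_comm x⁻¹ s v, hs _ (pow_nsmul_smul_zero _ hv)]
  have h4 : b • v = (x * y⁻¹) • v + chiNat χ k (x * y⁻¹) • (x * y⁻¹)⁻¹ • v := (hb v hv).symm
  have h5 : (n • b) • v = n • b • v := smul_assoc n b v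
  rw [sub_smul, h1, h3, h2, h5, h4, mul_inv_rev, mul_inv_rev, inv_inv]
  simp only [smul_add, mul_smul]
  rw [smul_comm x (chiNat χ k y), ← mul_nsmul' _ (chiNat χ k x) (chiNat χ k y),
    ← mul_nsmul' _ n (chiNat χ k (x * y⁻¹))]
  have e1 : chiNat χ k y • x • y⁻¹ • v = n • x • y⁻¹ • v := by
    refine nsmul_eq_of_natCast_eq ?_ (pow_nsmul_smul_zero _ (pow_nsmul_smul_zero _ hv))
    rw [natCast_chiNat, hn]
  have e2 : chiNat χ k x • y • x⁻¹ • v = (n * chiNat χ k (x * y⁻¹)) • y • x⁻¹ • v := by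
    refine nsmul_eq_of_natCast_eq ?_ (pow_nsmul_smul_zero _ (pow_nsmul_smul_zero _ hv))
    rw [Nat.cast_mul, natCast_chiNat, natCast_chiNat, hn, ← map_mul, mul_comm, ← map_mul χ,
      inv_mul_cancel_right]
  have e3 : (chiNat χ k x * chiNat χ k y) • y⁻¹ • x⁻¹ • v
      = chiNat χ k (x * y) • y⁻¹ • x⁻¹ • v := by
    refine nsmul_eq_of_natCast_eq ?_ (pow_nsmul_smul_zero _ (pow_nsmul_smul_zero _ hv))
    rw [Nat.cast_mul, natCast_chiNat, natCast_chiNat, natCast_chiNat, ← map_mul, ← map_mul]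
  rw [e1, e2, e3]
  abel

omit [SMulCommClass G R J] in
/-- A Frobenius relation gives a witness. -/
theorem isWit_of_quadratic {k : ℕ} {h : G} {t : R} {n : ℕ}
    (hn : (n : ZMod (p ^ k)) = PadicInt.toZModPow k (χ h))
    (hq : ∀ x : J, (p ^ k) • x = 0 → h • h • x - t • h • x + n • x = 0) :
    IsWit J χ k h t := by
  intro x hx
  have hx' := pow_nsmul_smul_zero h⁻¹ hx
  have := hq _ hx'
  rw [smul_inv_smul] at this
  have e : chiNat χ k h • h⁻¹ • x = n • h⁻¹ • x :=
    nsmul_eq_of_natCast_eq (by rw [natCast_chiNat, hn]) hx'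
  rw [e, ← sub_eq_zero, ← this]
  abel

/-- `recD a n j` is the trace of the `j`-th power in terms of trace `a` and determinant `n`. -/
def recD {S : Type*} [CommRing S] (a : S) (n : ℕ) : ℕ → S
  | 0 => 2
  | 1 => a
  | j + 2 => recD a n (j + 1) * a - n • recD a n j

theorem IsWit.pow {k : ℕ} {h : G} {t : R} {n : ℕ} (ht : IsWit J χ k h t)
    (hn : (n : ZMod (p ^ k)) = PadicInt.toZModPow k (χ h)) :
    ∀ j, IsWit J χ k (h ^ j) (recD t n j)
  | 0 => by rw [pow_zero]; exact isWit_one k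
  | 1 => by rw [pow_one]; exact ht
  | j + 2 => by
    have h1 := IsWit.pow ht hn (j + 1)
    have h0 : IsWit J χ k (h ^ (j + 1) * h⁻¹) (recD t n j) := by
      rw [pow_succ, mul_inv_cancel_right]; exact IsWit.pow ht hn j
    have := IsWit.mul h1 ht h0 hn
    rwa [← pow_succ] at this

theorem IsWit.comm {k : ℕ} {x y : G} {t : R} (ht : IsWit J χ k (x * y) t) :
    IsWit J χ k (y * x) t := by
  intro v hv
  have h := congrArg (fun w => x⁻¹ • w) (ht _ (pow_nsmul_smul_zero x hv))
  rw [smul_comm x⁻¹ t, inv_smul_smul, smul_add, smul_comm x⁻¹ (chiNat χ k (x * y)),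
    ← mul_smul, ← mul_smul, ← mul_smul, ← mul_smul] at h
  rw [show x⁻¹ * (x * y) * x = y * x by group,
    show x⁻¹ * (x * y)⁻¹ * x = (y * x)⁻¹ by group] at h
  have hn : chiNat χ k (y * x) = chiNat χ k (x * y) := by
    rw [chiNat, chiNat, map_mul χ, map_mul χ, mul_comm (χ y)]
  rw [hn, h]

omit [SMulCommClass G R J] in
theorem isWit_zero_of_sq {k : ℕ} {c : G} (hc : c * c = 1) (hχ : χ c = -1) :
    IsWit J χ k c (0 : R) := by
  intro x hx
  rw [inv_eq_of_mul_eq_one_right hc, zero_smul]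
  nth_rewrite 1 [← one_nsmul (c • x)]
  rw [← add_smul]
  conv_rhs => rw [← zero_nsmul (c • x)]
  refine nsmul_eq_of_natCast_eq ?_ (pow_nsmul_smul_zero c hx)
  rw [Nat.cast_add, natCast_chiNat, hχ, map_neg, map_one, Nat.cast_one, Nat.cast_zero,
    add_neg_cancel]

omit [SMulCommClass G R J] in
theorem kill_of_isWit {k : ℕ} {g : G} {t t' : R} (ht : IsWit J χ k g t)
    (ht' : IsWit J χ k g t') : ∀ x : J, (p ^ k) • x = 0 → (t - t') • x = 0 := by
  intro x hx
  rw [sub_smul, ← ht x hx, ← ht' x hx, sub_self]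

end Wit

end FLTAgent.GaloisAttach
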