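import Mathlib.LinearAlgebra.Charpoly.ToMatrix
import Mathlib.LinearAlgebra.Matrix.Charpoly.Coeff
import Fermat.Prelude.Def_GaloisRep_Residual
import Fermat.Agent.GaloisAttach.ModularTrace

/-!
# Residual representations attached to eigenvalue systems

An attached trace function with values in an algebraically closed field of characteristic `p`
gives a `ResidualMatrixRep` (`AttachedTrace.exists_residualMatrixRep`), unramified away from
`N p`.
-/

set_option autoImplicit false

noncomputable section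

open Polynomial

namespace FLTAgent.GaloisAttach

open FLTAgent.Density (GalQ Qbar)

/-- The output specification for matrices of a residual attached representation. -/
structure ResidualMatrixRep (N : ℕ) [NeZero N] (p : ℕ) (S : Set ℕ) {K : Type} [Field K]
    (χ : CuspForm.heckeAlgebra N 2 S →+* K) where
  M : GalQ →* Matrix (Fin 2) (Fin 2) K
  finite_level : GaloisFactorsThroughFiniteLevel M
  frob : ∀ (ℓ : ℕ) (hℓ : ℓ.Prime) (hℓN : ¬ ℓ ∣ N) (hℓS : ℓ ∉ S), ℓ ≠ p →
    ∀ A : ValuationSubring Qbar, A.LiesOverPrime ℓ → ∀ σ : GalQ, A.IsFrobeniusAt σ ℓ →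
      (M σ).trace = χ (CuspForm.heckeAlgebra.T hℓ hℓN hℓS) ∧ (M σ).det = (ℓ : K)
  inertia : ∀ q : ℕ, q.Prime → ¬ q ∣ N * p → ∀ A : ValuationSubring Qbar, A.LiesOverPrime q →
    ∀ σ ∈ A.inertiaSubgroupIn ℚ, M σ = 1

variable {N : ℕ} [NeZero N] {p : ℕ} {S : Set ℕ} {K : Type} [Field K]
  {χ : CuspForm.heckeAlgebra N 2 S →+* K}

theorem eq_of_bot_pow_one {a b : K} (h : a - b ∈ (⊥ : Ideal K) ^ 1) : a = b := by
  rwa [pow_one, Ideal.mem_bot, sub_eq_zero] at h

/-- An attached trace function with values in an algebraically closed field of characteristic `p`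
gives a residual representation. -/
theorem AttachedTrace.exists_residualMatrixRep [IsAlgClosed K] [CharP K p] (hp : p.Prime)
    (T : AttachedTrace N p S (⊥ : Ideal K) χ) : Nonempty (ResidualMatrixRep N p S χ) := by
  classical
  have hf : ModularityLifting.IsPseudoRep T.f T.ε := ⟨T.one, T.comm, T.mul⟩
  obtain ⟨L, hLfd, hL⟩ := T.continuous 1
  by_cases hsplit : ∃ (γ : GalQ) (α β : K), α ≠ β ∧ α + β = T.f γ ∧ α * β = T.ε γ
  · obtain ⟨γ, α, β, hne, hsum, hprod⟩ := hsplit
    obtain ⟨R⟩ := exists_realization hf γ hne hsum hprod ⊤ trivial trivial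
      (fun _ => trivial)
    have key : ∀ h, (∀ y, T.f (y * h) = T.f y) → R.M h = 1 := by
      intro h hh
      refine sub_eq_zero.mp (Matrix.ext fun i j => ?_)
      have := R.bound_mem ⊥ (fun o _ x hx => by
          rw [AddSubgroup.mem_bot] at hx ⊢; rw [hx, mul_zero]) h
        (fun y => by rw [hh y, sub_self]; exact zero_mem _) i j
      rw [AddSubgroup.mem_bot] at this
      exact (mul_eq_zero.mp this).resolve_left R.bound_ne
    refine ⟨{
      M := R.M
      finite_level := ⟨L, hLfd, fun σ hσ => key σ fun y => eq_of_bot_pow_one ((hL σ hσ).2 y)⟩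
      frob := fun ℓ hℓ hℓN hℓS hℓp A hA σ hσ => ?_
      inertia := fun q hq hqN A hA σ hσ => key σ (T.inertia q hq hqN A hA σ hσ).2 }⟩
    obtain ⟨h1, h2⟩ := T.frob ℓ hℓ hℓN hℓS hℓp A hA σ hσ
    exact ⟨by rw [R.trace_eq, h1], by rw [R.det_eq, h2]⟩
  · push Not at hsplit
    have hroots : ∀ γ, ∃ α : K, α + α = T.f γ := by
      intro γ
      obtain ⟨α, hα⟩ := IsAlgClosed.exists_root (X ^ 2 - C (T.f γ) * X + C (T.ε γ))
        (by
          refine fun h => ?_
          have : (X ^ 2 - C (T.f γ) * X + C (T.ε γ)).coeff 2 = 1 := by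
            simp
          rw [eq_C_of_degree_eq_zero h, coeff_C] at this
          simp at this)
      simp only [IsRoot, eval_add, eval_sub, eval_pow, eval_X, eval_mul, eval_C] at hα
      by_cases h : α = T.f γ - α
      · exact ⟨α, by linear_combination h⟩
      · exact absurd (show α * (T.f γ - α) = T.ε γ by linear_combination -hα)
          (hsplit γ α (T.f γ - α) h (add_sub_cancel _ _))
    have h2 : (2 : K) = 0 := by
      by_contra h
      refine hsplit complexConjugation 1 (-1) ?_ ?_ ?_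
      · exact fun h1 => h (by linear_combination h1)
      · rw [T.conj.1, add_neg_cancel]
      · rw [T.conj.2, one_mul]
    have hf0 : ∀ γ, T.f γ = 0 := fun γ => by
      obtain ⟨α, hα⟩ := hroots γ
      rw [← hα, ← two_mul, h2, zero_mul]
    have hp2 : p = 2 := by
      have : ((2 : ℕ) : K) = 0 := by simpa using h2
      rw [CharP.cast_eq_zero_iff K p] at this
      exact (Nat.prime_dvd_prime_iff_eq hp Nat.prime_two).mp this
    refine ⟨{
      M := 1
      finite_level := ⟨L, hLfd, fun _ _ => rfl⟩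
      frob := fun ℓ hℓ hℓN hℓS hℓp A hA σ hσ => ⟨?_, ?_⟩
      inertia := fun _ _ _ _ _ _ _ => rfl }⟩
    · rw [← (T.frob ℓ hℓ hℓN hℓS hℓp A hA σ hσ).1, hf0, MonoidHom.one_apply, Matrix.trace_one]
      simpa using h2
    · rw [MonoidHom.one_apply, Matrix.det_one]
      subst hp2
      obtain ⟨m, rfl⟩ := (hℓ.odd_of_ne_two hℓp)
      rw [Nat.cast_add, Nat.cast_mul, Nat.cast_ofNat, h2, zero_mul, zero_add, Nat.cast_one]

theorem charpoly_toLinAlgEquiv' {T : Type} [CommRing T] [Nontrivial T]
    (M : Matrix (Fin 2) (Fin 2) T) :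
    LinearMap.charpoly (Matrix.toLinAlgEquiv' M) = X ^ 2 - C M.trace * X + C M.det := by
  rw [← Matrix.charpoly_fin_two]
  exact Matrix.charpoly_toLin' M

end FLTAgent.GaloisAttach
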