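import Mathlib.RingTheory.Localization.FractionRing
import Mathlib.RingTheory.Localization.Integer
import Mathlib.LinearAlgebra.FreeModule.PID
import Mathlib.RingTheory.DiscreteValuationRing.Basic
import Fermat.Prelude.Def_GaloisRep_Adic
import Fermat.Agent.GaloisAttach.Residual

/-!
# Integral representations from trace functions with values in a discrete valuation ring

A bounded subgroup of `GL₂` over the fraction field of a PID has a stable lattice
(`exists_integral_conj`), so an attached trace function gives an `IntegralMatrixRep`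
(`AttachedTrace.exists_integralMatrixRep`) and the Galois representation `toRep` on `O²`.
-/

set_option autoImplicit false

noncomputable section

open Matrix

namespace FLTAgent.GaloisAttach

open FLTAgent.Density (GalQ Qbar)

/-- A bounded subgroup of `GL₂` over the fraction field of a PID can be conjugated into
integral matrices. -/
theorem exists_integral_conj {G O E : Type*} [Group G] [CommRing O] [IsDomain O]
    [IsPrincipalIdealRing O] [Field E] [Algebra O E] [IsFractionRing O E]
    (M : G →* Matrix (Fin 2) (Fin 2) E) (b : O) (hb : b ≠ 0)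
    (hbd : ∀ h i j, algebraMap O E b * M h i j ∈ (algebraMap O E).range) :
    ∃ (P : Matrix (Fin 2) (Fin 2) O) (A : G → Matrix (Fin 2) (Fin 2) O),
      IsUnit (P.map (algebraMap O E)).det ∧
      ∀ h, M h * P.map (algebraMap O E) = P.map (algebraMap O E) * (A h).map (algebraMap O E) := by
  let ι := algebraMap O E
  have hι : Function.Injective ι := IsFractionRing.injective O E
  let L : Submodule O (Fin 2 → O) :=
    { carrier := {v | ∀ h i, (M h *ᵥ (ι ∘ v)) i ∈ ι.range}
      add_mem' := by
        intro u v hu hv h i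
        rw [show (ι ∘ (u + v) : Fin 2 → E) = ι ∘ u + ι ∘ v from funext fun _ => map_add ι _ _,
          Matrix.mulVec_add]
        exact ι.range.add_mem (hu h i) (hv h i)
      zero_mem' := by
        intro h i
        rw [show (ι ∘ (0 : Fin 2 → O) : Fin 2 → E) = 0 from funext fun _ => map_zero ι,
          Matrix.mulVec_zero]
        exact ι.range.zero_mem
      smul_mem' := by
        intro c v hv h i
        rw [show (ι ∘ (c • v) : Fin 2 → E) = ι c • (ι ∘ v) from funext fun _ => map_mul ι _ _,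
          Matrix.mulVec_smul]
        exact ι.range.mul_mem ⟨c, rfl⟩ (hv h i) }
  have hbv : ∀ v : Fin 2 → O, b • v ∈ L := by
    intro v h i
    rw [show (ι ∘ (b • v) : Fin 2 → E) = ι b • (ι ∘ v) from funext fun _ => map_mul ι _ _,
      Matrix.mulVec_smul, Pi.smul_apply, Matrix.mulVec, dotProduct, Finset.smul_sum]
    refine ι.range.sum_mem fun j _ => ?_
    rw [smul_eq_mul, ← mul_assoc]
    exact ι.range.mul_mem (hbd h i j) ⟨v j, rfl⟩
  have : Module.Free O L := Module.free_of_finite_type_torsion_free'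
  have hrank : Module.finrank O L = 2 := by
    refine le_antisymm ((Submodule.finrank_le L).trans (by simp)) ?_
    let g : (Fin 2 → O) →ₗ[O] L := (LinearMap.lsmul O (Fin 2 → O) b).codRestrict L hbv
    have hg : Function.Injective g := fun u v huv => by
      have := congrArg Subtype.val huv
      exact smul_right_injective _ hb this
    simpa using LinearMap.finrank_le_finrank_of_injective hg
  let B := Module.finBasisOfFinrankEq O L hrank
  let P : Matrix (Fin 2) (Fin 2) O := fun i j => (B j : Fin 2 → O) i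
  have hcol : ∀ h (j : Fin 2), ∃ a : Fin 2 → O, (M h *ᵥ (ι ∘ (B j : Fin 2 → O))) =
      ι ∘ (∑ k, a k • (B k : Fin 2 → O)) := by
    intro h j
    choose w hw using (B j).2 h
    have hwL : w ∈ L := by
      intro h' i
      rw [show (ι ∘ w : Fin 2 → E) = M h *ᵥ (ι ∘ (B j : Fin 2 → O)) from funext hw,
        Matrix.mulVec_mulVec, ← map_mul]
      exact (B j).2 (h' * h) i
    refine ⟨fun k => B.repr ⟨w, hwL⟩ k, ?_⟩
    have e : ∑ k, B.repr ⟨w, hwL⟩ k • (B k : Fin 2 → O) = w := by
      have := congrArg L.subtype (B.sum_repr ⟨w, hwL⟩)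
      simp only [map_sum, map_smul, Submodule.coe_subtype] at this
      exact this
    rw [e]
    exact (funext hw).symm
  choose a ha using hcol
  refine ⟨P, fun h => fun k j => a h j k, ?_, fun h => ?_⟩
  · rw [isUnit_iff_ne_zero]
    change (ι.mapMatrix P).det ≠ 0
    rw [← RingHom.map_det, map_ne_zero_iff ι hι]
    intro h0
    obtain ⟨v, hv, hv0⟩ := Matrix.exists_mulVec_eq_zero_iff.mpr h0
    refine hv (funext fun k => ?_)
    have hli := Fintype.linearIndependent_iff.mp B.linearIndependent v ?_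
    · exact hli k
    · refine Subtype.ext ?_
      rw [Submodule.coe_sum, ZeroMemClass.coe_zero]
      funext i
      rw [Finset.sum_apply]
      simpa [Matrix.mulVec, dotProduct, P, mul_comm] using congrFun hv0 i
  · ext i j
    rw [Matrix.mul_apply, Matrix.mul_apply]
    have := congrFun (ha h j) i
    simp only [Function.comp_apply, Finset.sum_apply, map_sum, Pi.smul_apply, smul_eq_mul,
      map_mul] at this
    refine (Eq.trans ?_ this).trans (Finset.sum_congr rfl fun k _ => ?_)
    · rfl
    · exact mul_comm _ _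

/-- The output specification for an integral attached representation. -/
structure IntegralMatrixRep (N : ℕ) [NeZero N] (p : ℕ) (S : Set ℕ) {O : Type} [CommRing O]
    [IsLocalRing O] (χ : CuspForm.heckeAlgebra N 2 S →+* O) where
  M : GalQ →* Matrix (Fin 2) (Fin 2) O
  continuous : ∀ n : ℕ, ∃ L : IntermediateField ℚ Qbar, FiniteDimensional ℚ L ∧
    ∀ σ : GalQ, (∀ x ∈ L, σ x = x) → ∀ i j, (M σ - 1) i j ∈ IsLocalRing.maximalIdeal O ^ n
  frob : ∀ (ℓ : ℕ) (hℓ : ℓ.Prime) (hℓN : ¬ ℓ ∣ N) (hℓS : ℓ ∉ S), ℓ ≠ p →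
    ∀ A : ValuationSubring Qbar, A.LiesOverPrime ℓ → ∀ σ : GalQ, A.IsFrobeniusAt σ ℓ →
      (M σ).trace = χ (CuspForm.heckeAlgebra.T hℓ hℓN hℓS) ∧ (M σ).det = (ℓ : O)
  inertia : ∀ q : ℕ, q.Prime → ¬ q ∣ N * p → ∀ A : ValuationSubring Qbar, A.LiesOverPrime q →
    ∀ σ ∈ A.inertiaSubgroupIn ℚ, M σ = 1

variable {N : ℕ} [NeZero N] {p : ℕ} {S : Set ℕ} {O : Type} [CommRing O] [IsDomain O]
  [IsDiscreteValuationRing O] [CharZero O] {χ : CuspForm.heckeAlgebra N 2 S →+* O}

theorem AttachedTrace.exists_integralMatrixRep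
    (T : AttachedTrace N p S (IsLocalRing.maximalIdeal O) χ) :
    Nonempty (IntegralMatrixRep N p S χ) := by
  let E := FractionRing O
  let ι := algebraMap O E
  have hι : Function.Injective ι := IsFractionRing.injective O E
  have : CharZero E := charZero_of_injective_ringHom hι
  let ε' : GalQ →* E := ι.toMonoidHom.comp T.ε
  have hf : ModularityLifting.IsPseudoRep (fun g => ι (T.f g)) ε' :=
    ⟨by rw [T.one, map_ofNat], fun x y => by rw [T.comm], fun x y => by
      show ι (T.f (x * y)) + ι (T.ε y) * ι (T.f (x * y⁻¹)) = ι (T.f x) * ι (T.f y)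
      rw [← map_mul, ← map_add, T.mul, map_mul]⟩
  obtain ⟨R⟩ := exists_realization hf complexConjugation (α := (1 : E)) (β := -1)
    (fun h => two_ne_zero (α := E) (by linear_combination h))
    (by rw [T.conj.1, map_zero, add_neg_cancel])
    (by
      show (1 : E) * -1 = ι (T.ε complexConjugation)
      rw [T.conj.2, map_neg, map_one, one_mul])
    ι.range (one_mem _) (neg_mem (one_mem _)) (fun g => ⟨_, rfl⟩)
  obtain ⟨⟨x, y⟩, hxy⟩ := IsLocalization.surj (nonZeroDivisors O) R.bound
  have hxy' : R.bound * ι y = ι x := hxy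
  have hx0 : x ≠ 0 := by
    rintro rfl
    rw [map_zero, mul_eq_zero, map_eq_zero_iff ι hι] at hxy'
    exact hxy'.elim R.bound_ne (nonZeroDivisors.ne_zero y.2)
  have hsmall : ∀ (J : Ideal O) (h : GalQ), (∀ u, T.f (u * h) - T.f u ∈ J) →
      ∀ i j, ∃ z ∈ J, ι x * (R.M h - 1) i j = ι z := by
    intro J h hh i j
    let 𝔞 : AddSubgroup E := J.toAddSubgroup.map ι.toAddMonoidHom
    obtain ⟨z, hz, hzz⟩ := R.bound_mem 𝔞
      (by
        rintro _ ⟨o, rfl⟩ _ ⟨z, hz, rfl⟩
        exact ⟨o * z, J.mul_mem_left o hz, map_mul ι o z⟩) h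
      (fun u => ⟨_, hh u, map_sub ι _ _⟩) i j
    refine ⟨(y : O) * z, J.mul_mem_left _ hz, ?_⟩
    rw [map_mul, show ι z = R.bound * (R.M h - 1) i j from hzz, ← hxy']
    ring
  have hbd : ∀ h i j, ι x * R.M h i j ∈ ι.range := by
    intro h i j
    obtain ⟨z, -, hz⟩ := hsmall ⊤ h (fun _ => trivial) i j
    refine ⟨z + x * (1 : Matrix (Fin 2) (Fin 2) O) i j, ?_⟩
    rw [map_add, map_mul, ← hz, Matrix.sub_apply]
    by_cases hij : i = j
    · subst hij; simp only [Matrix.one_apply_eq, mul_one, map_one]; ring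
    · simp [Matrix.one_apply_ne hij]
  obtain ⟨P, A, hP, hA⟩ := exists_integral_conj R.M x hx0 hbd
  let P' := P.map ι
  have hA' : ∀ h, (A h).map ι = P'⁻¹ * R.M h * P' := fun h => by
    rw [Matrix.mul_assoc, hA, Matrix.nonsing_inv_mul_cancel_left _ _ hP]
  have hmapinj : Function.Injective fun X : Matrix (Fin 2) (Fin 2) O => X.map ι :=
    Matrix.map_injective hι
  let M : GalQ →* Matrix (Fin 2) (Fin 2) O :=
    { toFun := A
      map_one' := hmapinj (by
        show (A 1).map ι = (1 : Matrix (Fin 2) (Fin 2) O).map ι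
        rw [hA', map_one, Matrix.mul_one, Matrix.nonsing_inv_mul _ hP,
          Matrix.map_one _ (map_zero ι) (map_one ι)])
      map_mul' := fun g h => hmapinj (by
        show (A (g * h)).map ι = (A g * A h).map ι
        rw [Matrix.map_mul, hA', hA', hA', map_mul]
        simp only [Matrix.mul_assoc,
          show ∀ X, P' * (P'⁻¹ * X) = X from
            fun X => Matrix.mul_nonsing_inv_cancel_left _ X hP]) }
  have hM : ∀ h, (M h).map ι = P'⁻¹ * R.M h * P' := hA'
  have hMtr : ∀ h, (M h).trace = T.f h := fun h => hι (by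
    show ι (∑ i, M h i i) = _
    rw [map_sum]
    show ((M h).map ι).trace = _
    rw [hM, Matrix.trace_mul_cycle, Matrix.mul_nonsing_inv _ hP, Matrix.one_mul, R.trace_eq])
  have hMdet : ∀ h, (M h).det = T.ε h := fun h => hι (by
    rw [RingHom.map_det, RingHom.mapMatrix_apply, hM, Matrix.det_mul, Matrix.det_mul,
      mul_comm, ← mul_assoc, ← Matrix.det_mul, Matrix.mul_nonsing_inv _ hP, Matrix.det_one,
      one_mul, R.det_eq]
    rfl)
  refine ⟨{
    M := M
    continuous := ?_
    frob := fun ℓ hℓ hℓN hℓS hℓp A hA σ hσ => by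
      rw [hMtr, hMdet]
      exact T.frob ℓ hℓ hℓN hℓS hℓp A hA σ hσ
    inertia := ?_ }⟩
  · intro n
    obtain ⟨d, hd⟩ := IsLocalization.exist_integer_multiples_of_finite (nonZeroDivisors O)
      (fun ij : Fin 2 × Fin 2 => P'⁻¹ ij.1 ij.2)
    have hd0 : (d : O) * x ≠ 0 := mul_ne_zero (nonZeroDivisors.ne_zero d.2) hx0
    obtain ⟨ϖ, hϖ⟩ := IsDiscreteValuationRing.exists_irreducible O
    obtain ⟨m, u, hu⟩ := IsDiscreteValuationRing.eq_unit_mul_pow_irreducible hd0 hϖ
    obtain ⟨L, hLfd, hL⟩ := T.continuous (n + m)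
    refine ⟨L, hLfd, fun σ hσ i j => ?_⟩
    choose z hz hz' using hsmall _ σ (hL σ hσ).2
    choose w hw using hd
    have hwq : ∀ k l, ι (w (k, l)) = ι (d : O) * P'⁻¹ k l := fun k l => by
      have := hw (k, l)
      rwa [Algebra.smul_def] at this
    have hconj : ((M σ - 1).map ι) = P'⁻¹ * (R.M σ - 1) * P' := by
      rw [Matrix.map_sub _ (map_sub ι), hM, Matrix.map_one _ (map_zero ι) (map_one ι),
        Matrix.mul_sub, Matrix.sub_mul, Matrix.mul_one, Matrix.nonsing_inv_mul _ hP]
    have he := congrFun (congrFun hconj i) j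
    rw [Matrix.map_apply, Matrix.mul_apply] at he
    have key : (d : O) * x * (M σ - 1) i j =
        ∑ l, (∑ k, w (i, k) * z k l) * P l j := by
      apply hι
      simp only [map_mul, map_sum]
      rw [he, Finset.mul_sum]
      refine Finset.sum_congr rfl fun l _ => ?_
      rw [Matrix.mul_apply]
      simp only [Finset.sum_mul, Finset.mul_sum]
      refine Finset.sum_congr rfl fun k _ => ?_
      rw [hwq, ← hz' k l]
      show _ = ι (d : O) * P'⁻¹ i k * (ι x * (R.M σ - 1) k l) * P' l j
      ring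
    have hmem : (d : O) * x * (M σ - 1) i j ∈ IsLocalRing.maximalIdeal O ^ (n + m) := by
      rw [key]
      exact Ideal.sum_mem _ fun l _ => Ideal.mul_mem_right _ _
        (Ideal.sum_mem _ fun k _ => Ideal.mul_mem_left _ _ (hz k l))
    rw [hu, hϖ.maximalIdeal_eq, Ideal.span_singleton_pow, Ideal.mem_span_singleton,
      mul_assoc, Units.dvd_mul_left, pow_add, mul_comm (ϖ ^ n),
      mul_dvd_mul_iff_left (pow_ne_zero _ hϖ.ne_zero)] at hmem
    rw [hϖ.maximalIdeal_eq, Ideal.span_singleton_pow, Ideal.mem_span_singleton]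
    exact hmem
  · intro q hq hqN A' hA' σ hσ
    have hR : R.M σ = 1 := sub_eq_zero.mp (Matrix.ext fun i j => by
      obtain ⟨z, hz, hzz⟩ := hsmall ⊥ σ
        (fun u => by rw [(T.inertia q hq hqN A' hA' σ hσ).2 u, sub_self]; exact zero_mem _) i j
      rw [(Ideal.mem_bot).mp hz, map_zero] at hzz
      exact (mul_eq_zero.mp hzz).resolve_left ((map_ne_zero_iff ι hι).mpr hx0))
    apply hmapinj
    show (M σ).map ι = (1 : Matrix (Fin 2) (Fin 2) O).map ι
    rw [hM, hR, Matrix.mul_one, Matrix.nonsing_inv_mul _ hP,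
      Matrix.map_one _ (map_zero ι) (map_one ι)]

/-- The Galois representation on `O²`. -/
def IntegralMatrixRep.toRep (R : IntegralMatrixRep N p S χ) : GaloisRepAdic O where
  V := Fin 2 → O
  finrank_eq := by simp
  ρ := (Matrix.toLinAlgEquiv' : Matrix (Fin 2) (Fin 2) O ≃ₐ[O] _).toMonoidHom.comp R.M
  isAdicContinuous := by
    intro n
    obtain ⟨L, hL, h⟩ := R.continuous n
    refine ⟨L, hL, fun σ hσ v => ?_⟩
    show R.M σ *ᵥ v - v ∈ _
    rw [pi_eq_sum_univ' (R.M σ *ᵥ v - v)]
    refine Submodule.sum_mem _ fun i _ => Submodule.smul_mem_smul ?_ Submodule.mem_top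
    rw [show R.M σ *ᵥ v - v = (R.M σ - 1) *ᵥ v by rw [Matrix.sub_mulVec, Matrix.one_mulVec]]
    rw [Matrix.mulVec, dotProduct]
    exact Ideal.sum_mem _ fun j _ => Ideal.mul_mem_right _ _ (h σ hσ i j)

omit [CharZero O] in
theorem IntegralMatrixRep.isUnramifiedAt_toRep (R : IntegralMatrixRep N p S χ) {q : ℕ}
    (hq : q.Prime) (hqN : ¬ q ∣ N * p) : R.toRep.IsUnramifiedAt q := fun A hA σ hσ => by
  show Matrix.toLinAlgEquiv' (R.M σ) = 1
  rw [R.inertia q hq hqN A hA σ hσ, map_one]

end FLTAgent.GaloisAttach
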