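import Mathlib.RingTheory.SimpleModule.Basic
import Mathlib.FieldTheory.IsAlgClosed.Basic
import Mathlib.LinearAlgebra.Eigenspace.Triangularizable
import Mathlib.LinearAlgebra.Matrix.ToLin
import Mathlib.LinearAlgebra.Matrix.Trace
import Mathlib.LinearAlgebra.Matrix.Nondegenerate

/-!
# Burnside's theorem and nondegeneracy of the trace pairing

An irreducible representation over an algebraically closed field spans the endomorphisms
(`span_range_eq_top_of_irreducible`); hence the trace pairing against residually spanning matrices
is nondegenerate (`eq_zero_of_trace_mul_eq_zero`).  Used in `DatumUnramified`.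
-/

set_option autoImplicit false

namespace FLTAgent.GaloisAttach

/-- Burnside: an irreducible representation over an algebraically closed field spans `End`. -/
theorem span_range_eq_top_of_irreducible {K V G : Type*} [Field K] [IsAlgClosed K]
    [AddCommGroup V] [Module K V] [FiniteDimensional K V] [Nontrivial V] [Monoid G]
    (ρ : G →* Module.End K V)
    (hirr : ∀ W : Submodule K V, (∀ g, ∀ x ∈ W, ρ g x ∈ W) → W = ⊥ ∨ W = ⊤) :
    Submodule.span K (Set.range ρ) = ⊤ := by
  let A : Subalgebra K (Module.End K V) := Algebra.adjoin K (Set.range ρ)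
  have hAspan : Subalgebra.toSubmodule A = Submodule.span K (Set.range ρ) := by
    rw [Algebra.adjoin_eq_span, ← MonoidHom.coe_mrange, Submonoid.closure_eq]
  have hsimple : IsSimpleModule A V := by
    refine isSimpleModule_iff _ _ |>.mpr ⟨fun W => ?_⟩
    let W' : Submodule K V :=
      { carrier := W
        add_mem' := fun ha hb => W.add_mem ha hb
        zero_mem' := W.zero_mem
        smul_mem' := fun c x hx => by
          have := W.smul_mem (⟨algebraMap K _ c, A.algebraMap_mem c⟩ : A) hx
          simpa [Subalgebra.smul_def, Module.End.smul_def, Module.algebraMap_end_apply] using this }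
    have hW' : ∀ g, ∀ x ∈ W', ρ g x ∈ W' := fun g x hx =>
      W.smul_mem (⟨ρ g, Algebra.subset_adjoin ⟨g, rfl⟩⟩ : A) hx
    rcases hirr W' hW' with h | h
    · exact Or.inl (SetLike.ext fun x => by
        have := SetLike.ext_iff.mp h x
        simpa [W'] using this)
    · exact Or.inr (SetLike.ext fun x => by
        have := SetLike.ext_iff.mp h x
        simpa [W'] using this)
  have hsc : ∀ f : Module.End A V, ∃ μ : K, ∀ x, f x = μ • x := by
    intro f
    have hlin : ∀ (c : K) (x : V), f (c • x) = c • f x := fun c x => by
      simp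
    let fK : Module.End K V := { toFun := f, map_add' := f.map_add, map_smul' := hlin }
    obtain ⟨μ, hμ⟩ := Module.End.exists_eigenvalue fK
    refine ⟨μ, ?_⟩
    have hst : ∀ g, ∀ x ∈ fK.eigenspace μ, ρ g x ∈ fK.eigenspace μ := fun g x hx => by
      rw [Module.End.mem_eigenspace_iff] at hx ⊢
      have := f.map_smul (⟨ρ g, Algebra.subset_adjoin ⟨g, rfl⟩⟩ : A) x
      show f (ρ g x) = μ • ρ g x
      rw [← map_smul (ρ g), ← hx]
      exact this
    rcases hirr _ hst with h | h
    · exact absurd h (Module.End.hasEigenvalue_iff.mp hμ)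
    · intro x
      exact Module.End.mem_eigenspace_iff.mp (h ▸ Submodule.mem_top : x ∈ fK.eigenspace μ)
  have : Module.Finite (Module.End A V) V := by
    obtain ⟨s, hs⟩ := (inferInstance : Module.Finite K V).fg_top
    refine ⟨⟨s, ?_⟩⟩
    rw [eq_top_iff]
    rintro x -
    induction hs.ge (Submodule.mem_top : x ∈ ⊤) using Submodule.span_induction with
    | mem x hx => exact Submodule.subset_span hx
    | zero => exact zero_mem _
    | add _ _ _ _ h₁ h₂ => exact add_mem h₁ h₂
    | smul c x _ h =>
      let fc : Module.End A V :=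
        { toFun := fun v => c • v
          map_add' := smul_add c
          map_smul' := fun a v => ((a : Module.End K V).map_smul c v).symm }
      exact Submodule.smul_mem _ fc h
  rw [← hAspan, eq_top_iff]
  rintro F -
  let F' : Module.End (Module.End A V) V :=
    { toFun := F
      map_add' := F.map_add
      map_smul' := fun f x => by
        obtain ⟨μ, hμ⟩ := hsc f
        show F (f x) = f (F x)
        rw [hμ, hμ, map_smul] }
  obtain ⟨r, hr⟩ := Module.Finite.toModuleEnd_moduleEnd_surjective (R := A) (M := V) F'
  have : (r : Module.End K V) = F := LinearMap.ext fun x => LinearMap.congr_fun hr x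
  exact this ▸ r.2

/-- If the residual matrices span, the trace pairing against the image is nondegenerate. -/
theorem eq_zero_of_trace_mul_eq_zero {T K G : Type*} [CommRing T] [Field K] (φ : T →+* K)
    (hφ : ∀ t, φ t ≠ 0 → IsUnit t) (M : G → Matrix (Fin 2) (Fin 2) T)
    (hspan : Submodule.span K (Set.range fun g => (M g).map φ) = ⊤)
    {X : Matrix (Fin 2) (Fin 2) T} (hX : ∀ g, (X * M g).trace = 0) : X = 0 := by
  classical
  obtain ⟨b, hb, hbspan, hbli⟩ :=
    exists_linearIndependent K (Set.range fun g => (M g).map φ)
  rw [hspan] at hbspan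
  let B : Module.Basis b K (Matrix (Fin 2) (Fin 2) K) :=
    Module.Basis.mk hbli (by rw [Subtype.range_coe, hbspan])
  have : Fintype b := FiniteDimensional.fintypeBasisIndex B
  let S := Matrix.stdBasis K (Fin 2) (Fin 2)
  let e : b ≃ (Fin 2 × Fin 2) := B.indexEquiv S
  choose g hg using fun i : Fin 2 × Fin 2 => hb (e.symm i).2
  let P : Matrix (Fin 2 × Fin 2) (Fin 2 × Fin 2) T := fun i j => M (g i) j.1 j.2
  have hdet : IsUnit P.det := by
    refine hφ _ fun h0 => ?_
    rw [RingHom.map_det] at h0
    obtain ⟨v, hv, hv0⟩ := Matrix.exists_mulVec_eq_zero_iff.mpr h0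
    let L : Matrix (Fin 2) (Fin 2) K →ₗ[K] K :=
      { toFun := fun Y => ∑ j : Fin 2 × Fin 2, Y j.1 j.2 * v j
        map_add' := fun Y Z => by simp [add_mul, Finset.sum_add_distrib]
        map_smul' := fun c Y => by simp [Finset.mul_sum, mul_assoc] }
    have hL : L = 0 := B.ext fun i => by
      have h1 := congrFun hv0 (e i)
      have h2 : (M (g (e i))).map φ = (i : Matrix (Fin 2) (Fin 2) K) := by
        have := hg (e i); rw [Equiv.symm_apply_apply] at this; exact this
      rw [Module.Basis.mk_apply, LinearMap.zero_apply]
      show ∑ j : Fin 2 × Fin 2, (i : Matrix (Fin 2) (Fin 2) K) j.1 j.2 * v j = 0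
      rw [← h2]
      exact h1
    refine hv (funext fun j => ?_)
    have := LinearMap.congr_fun hL (Matrix.single j.1 j.2 1)
    change ∑ i : Fin 2 × Fin 2, (Matrix.single j.1 j.2 (1 : K)) i.1 i.2 * v i = 0 at this
    rwa [Finset.sum_eq_single j, Matrix.single_apply_same, one_mul] at this
    · intro i _ hij
      rw [Matrix.single_apply, if_neg, zero_mul]
      exact fun hh => hij (Prod.ext hh.1.symm hh.2.symm)
    · simp
  have hmv : P.mulVec (fun j => X j.2 j.1) = 0 := funext fun i => by
    have := hX (g i)
    simp only [Matrix.trace, Matrix.diag_apply, Matrix.mul_apply] at this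
    simp only [Matrix.mulVec, dotProduct, P, Fintype.sum_prod_type, Pi.zero_apply]
    rw [← this, Finset.sum_comm]
    exact Finset.sum_congr rfl fun _ _ => Finset.sum_congr rfl fun _ _ => mul_comm _ _
  have hzero : (fun j : Fin 2 × Fin 2 => X j.2 j.1) = 0 := by
    have hi := congrArg (P⁻¹).mulVec hmv
    rwa [Matrix.mulVec_mulVec, Matrix.nonsing_inv_mul P hdet, Matrix.one_mulVec,
      Matrix.mulVec_zero] at hi
  ext i j
  exact congrFun hzero (j, i)

end FLTAgent.GaloisAttach
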