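import Mathlib.RingTheory.TensorProduct.Free
import Fermat.Prelude.Def_CuspForm_HeckeGaloisRepDatum
import Fermat.Agent.GaloisAttach.Residual
import Fermat.Agent.GaloisAttach.Span

/-!
# A representation with the Frobenius polynomials of an eigenvalue system is unramified

Frobenius divisions identify the trace of such a representation with the attached trace function
(`trace_eq_attached`); for absolutely irreducible residual representation it is then unramified
away from `N p` (`isUnramifiedAt_of_attached`, the main input of S31).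
-/

set_option autoImplicit false

noncomputable section

open Polynomial

namespace FLTAgent.GaloisAttach

open FLTAgent.Density (GalQ Qbar)

theorem matrix_sq_eq {T : Type} [CommRing T] (X : Matrix (Fin 2) (Fin 2) T) :
    X * X = X.trace • X - X.det • (1 : Matrix (Fin 2) (Fin 2) T) := by
  ext i j
  fin_cases i <;> fin_cases j <;>
    simp [Matrix.mul_apply, Matrix.trace_fin_two, Matrix.det_fin_two, Fin.sum_univ_two] <;> ring

theorem trace_pow_step {T : Type} [CommRing T] (X : Matrix (Fin 2) (Fin 2) T) (j : ℕ) :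
    (X ^ (j + 2)).trace = X.trace * (X ^ (j + 1)).trace - X.det * (X ^ j).trace := by
  rw [pow_add, pow_two, matrix_sq_eq, Matrix.mul_sub, Matrix.mul_smul, Matrix.mul_smul,
    Matrix.mul_one, ← pow_succ, Matrix.trace_sub, Matrix.trace_smul, Matrix.trace_smul,
    smul_eq_mul, smul_eq_mul]

theorem repr_mem_of_mem_smul_top {T : Type} [CommRing T] {V : Type} [AddCommGroup V] [Module T V]
    {ι : Type} (b : Module.Basis ι T V) (I : Ideal T) {v : V}
    (hv : v ∈ I • (⊤ : Submodule T V)) (i : ι) : b.repr v i ∈ I := by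
  refine Submodule.smul_induction_on hv (fun r hr w _ => ?_) fun x y hx hy => ?_
  · rw [map_smul, Finsupp.smul_apply, smul_eq_mul]
    exact I.mul_mem_right _ hr
  · rw [map_add, Finsupp.add_apply]
    exact I.add_mem hx hy

/-- The reduction to an algebraic closure of the residue field. -/
def residueBar (T : Type) [CommRing T] [IsLocalRing T] :
    T →+* AlgebraicClosure (IsLocalRing.ResidueField T) :=
  (algebraMap (IsLocalRing.ResidueField T) _).comp (IsLocalRing.residue T)

theorem isUnit_of_residueBar_ne_zero {T : Type} [CommRing T] [IsLocalRing T] (t : T)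
    (ht : residueBar T t ≠ 0) : IsUnit t := by
  by_contra hu
  refine ht ?_
  rw [residueBar, RingHom.comp_apply, (IsLocalRing.residue_eq_zero_iff t).mpr hu, map_zero]

/-- The reduced matrices of a residually absolutely irreducible representation span. -/
theorem span_residueBar_toMatrix_eq_top {T : Type} [CommRing T] [IsLocalRing T]
    (ρ : GaloisRepAdic T) (hirr : ρ.residual.IsAbsolutelyIrreducible)
    (b : Module.Basis (Fin 2) T ρ.V) :
    Submodule.span (AlgebraicClosure (IsLocalRing.ResidueField T))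
      (Set.range fun g => (LinearMap.toMatrix b b (ρ.ρ g)).map (residueBar T)) = ⊤ := by
  let k := IsLocalRing.ResidueField T
  let K := AlgebraicClosure k
  let ρ₂ := ρ.residual.baseChange K
  let b₂ : Module.Basis (Fin 2) K ρ₂.V :=
    Algebra.TensorProduct.basis K (Algebra.TensorProduct.basis k b)
  have hmat : ∀ g, LinearMap.toMatrix b₂ b₂ (ρ₂.ρ g) =
      (LinearMap.toMatrix b b (ρ.ρ g)).map (residueBar T) := by
    intro g
    show LinearMap.toMatrix (Algebra.TensorProduct.basis K (Algebra.TensorProduct.basis k b))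
      (Algebra.TensorProduct.basis K (Algebra.TensorProduct.basis k b))
      (((ρ.ρ g).baseChange k).baseChange K) = _
    rw [LinearMap.toMatrix_baseChange, LinearMap.toMatrix_baseChange, Matrix.map_map]
    rfl
  have : Module.Finite K ρ₂.V := ρ₂.instModuleFinite
  have : Nontrivial ρ₂.V := Module.nontrivial_of_finrank_pos (R := K) (by
    rw [ρ₂.finrank_eq]; norm_num)
  have := span_range_eq_top_of_irreducible ρ₂.ρ hirr
  have h2 := congrArg (Submodule.map (LinearMap.toMatrix b₂ b₂).toLinearMap) this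
  rw [Submodule.map_span, ← Set.range_comp, Submodule.map_top, LinearEquiv.range] at h2
  rw [← h2]
  congr 1
  exact congrArg Set.range (funext fun g => (hmat g).symm)

variable {T : Type} [CommRing T] [IsLocalRing T] [IsAdicComplete (IsLocalRing.maximalIdeal T) T]
  {N : ℕ} [NeZero N] {p : ℕ} {S : Finset ℕ}
  {π : CuspForm.heckeAlgebra N 2 (↑S : Set ℕ) →+* T}

/-- If `ρ` has the Frobenius characteristic polynomials of `π`, its trace is the attached trace
function. -/
theorem trace_eq_attached (hF : FrobeniusDivisions)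
    (A : AttachedTrace N p (↑S : Set ℕ) (IsLocalRing.maximalIdeal T) π)
    (M : GalQ →* Matrix (Fin 2) (Fin 2) T)
    (hcont : ∀ n : ℕ, ∃ L : IntermediateField ℚ Qbar, FiniteDimensional ℚ L ∧
      ∀ σ : GalQ, (∀ x ∈ L, σ x = x) → ∀ i j, (M σ - 1) i j ∈ IsLocalRing.maximalIdeal T ^ n)
    (hfrob : ∀ (ℓ : ℕ) (hℓ : ℓ.Prime) (hℓN : ¬ ℓ ∣ N) (hℓS : ℓ ∉ (↑S : Set ℕ)), ℓ ≠ p →
      ∀ P : ValuationSubring Qbar, P.LiesOverPrime ℓ → ∀ σ : GalQ, P.IsFrobeniusAt σ ℓ →
        (M σ).trace = π (CuspForm.heckeAlgebra.T hℓ hℓN hℓS) ∧ (M σ).det = (ℓ : T))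
    (g : GalQ) : (M g).trace = A.f g := by
  refine eq_of_forall_sub_mem_pow (I := IsLocalRing.maximalIdeal T) fun n => ?_
  obtain ⟨L₁, hL₁fd, hL₁⟩ := hcont n
  obtain ⟨L₂, hL₂fd, hL₂⟩ := A.continuous n
  let L := IntermediateField.normalClosure ℚ (L₁ ⊔ L₂ : IntermediateField ℚ Qbar) Qbar
  have : FiniteDimensional ℚ (L₁ ⊔ L₂ : IntermediateField ℚ Qbar) :=
    IntermediateField.finiteDimensional_sup _ _
  have : Normal ℚ L := normalClosure.normal ℚ _ Qbar
  have : IsGalois ℚ L := IsGalois.mk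
  obtain ⟨ℓ, hℓ, hℓS, P, hP, σ, hσ, j, hj⟩ := hF L g (S ∪ N.primeFactors ∪ {p})
  simp only [Finset.mem_union, Finset.mem_singleton, not_or] at hℓS
  have hℓN : ¬ ℓ ∣ N := fun h => hℓS.1.2 (Nat.mem_primeFactors.mpr ⟨hℓ, h, NeZero.ne N⟩)
  have hℓS' : ℓ ∉ (↑S : Set ℕ) := fun h => hℓS.1.1 (Finset.mem_coe.mp h)
  obtain ⟨htr, hdet⟩ := hfrob ℓ hℓ hℓN hℓS' hℓS.2 P hP σ hσ
  obtain ⟨hf, hε⟩ := A.frob ℓ hℓ hℓN hℓS' hℓS.2 P hP σ hσ
  have hpow : ∀ i, (M (σ ^ i)).trace = A.f (σ ^ i) := by
    intro i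
    induction i using Nat.twoStepInduction with
    | zero => rw [pow_zero, map_one, A.one, Matrix.trace_one]; simp
    | one => rw [pow_one, htr, hf]
    | more i ih ih1 =>
      have h := A.mul (σ ^ (i + 1)) σ
      rw [← pow_succ, show σ ^ (i + 1) * σ⁻¹ = σ ^ i by rw [pow_succ, mul_inv_cancel_right],
        hε, hf] at h
      rw [map_pow, trace_pow_step, ← map_pow, ← map_pow, ih1, ih, htr, hdet]
      linear_combination -h
  set τ := (σ ^ j)⁻¹ * g with hτ
  have hg : g = σ ^ j * τ := by rw [hτ, mul_inv_cancel_left]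
  have hfix : ∀ x ∈ L, τ x = x := fun x hx => by
    rw [hτ, AlgEquiv.mul_apply, hj x hx]
    exact (σ ^ j).symm_apply_apply x
  have hle : (L₁ ⊔ L₂ : IntermediateField ℚ Qbar) ≤ L := IntermediateField.le_normalClosure _
  have h1 := hL₁ τ fun x hx => hfix x (hle (le_sup_left (b := L₂) hx))
  have h2 := (hL₂ τ fun x hx => hfix x (hle (le_sup_right (a := L₁) hx))).2 (σ ^ j)
  have h3 : (M g).trace - (M (σ ^ j)).trace ∈ IsLocalRing.maximalIdeal T ^ n := by
    rw [hg, map_mul, ← Matrix.trace_sub]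
    have : M (σ ^ j) * M τ - M (σ ^ j) = M (σ ^ j) * (M τ - 1) := by
      rw [Matrix.mul_sub, Matrix.mul_one]
    rw [this, Matrix.trace]
    refine Ideal.sum_mem _ fun i _ => ?_
    rw [Matrix.diag_apply, Matrix.mul_apply]
    exact Ideal.sum_mem _ fun k _ => Ideal.mul_mem_left _ _ (h1 k i)
  rw [hpow j] at h3
  rw [← hg] at h2
  have := sub_mem h3 h2
  rwa [sub_sub_sub_cancel_right] at this

/-- The trace of a representation with the Frobenius polynomials of `π`, in any basis, is the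
attached trace. -/
theorem trace_toMatrix_eq_attached (hF : FrobeniusDivisions)
    (A : AttachedTrace N p (↑S : Set ℕ) (IsLocalRing.maximalIdeal T) π) (ρ : GaloisRepAdic T)
    (hchar : ∀ (ℓ : ℕ) (hℓ : ℓ.Prime) (hℓN : ¬ ℓ ∣ N) (hℓS : ℓ ∉ (↑S : Set ℕ)),
      ∀ P : ValuationSubring Qbar, P.LiesOverPrime ℓ → ∀ σ : GalQ, P.IsFrobeniusAt σ ℓ →
        LinearMap.charpoly (ρ.ρ σ) =
          X ^ 2 - C (π (CuspForm.heckeAlgebra.T hℓ hℓN hℓS)) * X + C ((ℓ : T)))
    (b : Module.Basis (Fin 2) T ρ.V) (g : GalQ) :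
    (LinearMap.toMatrix b b (ρ.ρ g)).trace = A.f g := by
  let M : GalQ →* Matrix (Fin 2) (Fin 2) T :=
    (LinearMap.toMatrixAlgEquiv b).toMonoidHom.comp ρ.ρ
  have hMdef : ∀ σ, M σ = LinearMap.toMatrix b b (ρ.ρ σ) := fun σ => rfl
  refine trace_eq_attached hF A M (fun n => ?_) (fun ℓ hℓ hℓN hℓS _ P hP σ hσ => ?_) g
  · obtain ⟨L, hL, h⟩ := ρ.isAdicContinuous n
    refine ⟨L, hL, fun σ hσ i j => ?_⟩
    rw [hMdef, ← LinearMap.toMatrix_id b, ← map_sub, LinearMap.toMatrix_apply,
      LinearMap.sub_apply, LinearMap.id_apply]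
    exact repr_mem_of_mem_smul_top b _ (h σ hσ (b j)) i
  · have h := hchar ℓ hℓ hℓN hℓS P hP σ hσ
    rw [← LinearMap.charpoly_toMatrix (ρ.ρ σ) b, ← hMdef, Matrix.charpoly_fin_two] at h
    have h0 := congrArg (fun P : T[X] => P.coeff 0) h
    have h1 := congrArg (fun P : T[X] => P.coeff 1) h
    simp [coeff_X_pow, coeff_C] at h0 h1
    exact ⟨h1, h0⟩

/-- The main statement behind S31. -/
theorem isUnramifiedAt_of_attached (hF : FrobeniusDivisions)
    (A : AttachedTrace N p (↑S : Set ℕ) (IsLocalRing.maximalIdeal T) π) (ρ : GaloisRepAdic T)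
    (hchar : ∀ (ℓ : ℕ) (hℓ : ℓ.Prime) (hℓN : ¬ ℓ ∣ N) (hℓS : ℓ ∉ (↑S : Set ℕ)),
      ∀ P : ValuationSubring Qbar, P.LiesOverPrime ℓ → ∀ σ : GalQ, P.IsFrobeniusAt σ ℓ →
        LinearMap.charpoly (ρ.ρ σ) =
          X ^ 2 - C (π (CuspForm.heckeAlgebra.T hℓ hℓN hℓS)) * X + C ((ℓ : T)))
    (hirr : ρ.residual.IsAbsolutelyIrreducible) {q : ℕ} (hq : q.Prime) (hqN : ¬ q ∣ N * p) :
    ρ.IsUnramifiedAt q := by
  classical
  let b : Module.Basis (Fin 2) T ρ.V := Module.finBasisOfFinrankEq T ρ.V ρ.finrank_eq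
  let M : GalQ →* Matrix (Fin 2) (Fin 2) T :=
    (LinearMap.toMatrixAlgEquiv b).toMonoidHom.comp ρ.ρ
  have htr : ∀ g, (M g).trace = A.f g := trace_toMatrix_eq_attached hF A ρ hchar b
  intro P hP σ hσ
  have hMσ : M σ = 1 := by
    refine sub_eq_zero.mp (eq_zero_of_trace_mul_eq_zero (residueBar T) isUnit_of_residueBar_ne_zero
      M (span_residueBar_toMatrix_eq_top ρ hirr b) fun τ => ?_)
    rw [Matrix.sub_mul, Matrix.one_mul, Matrix.trace_sub, Matrix.trace_mul_comm, ← map_mul,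
      htr, htr, (A.inertia q hq hqN P hP σ hσ).2 τ, sub_self]
  apply (LinearMap.toMatrixAlgEquiv b).injective
  rw [map_one]
  exact hMσ

end FLTAgent.GaloisAttach
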