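import Fermat.Agent.GaloisAttach.Witness

/-!
# The trace function attached to a system of witnesses

From a `TraceInput` (witnesses on every torsion level in an adically complete ring) builds the
trace function `tr` and the determinant character `det`, with the axioms of a two-dimensional
pseudo-representation, congruences on open subgroups and the value at quadratic elements.
-/

set_option autoImplicit false

namespace FLTAgent.GaloisAttach

variable {G R J A : Type*} [Group G] [CommRing R] [AddCommGroup J] [Module R J]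
  [DistribMulAction G J] [SMulCommClass G R J] [CommRing A] {I : Ideal A}
variable {p : ℕ} [Fact p.Prime] {χ : G →* ℤ_[p]}

variable (J χ) in
/-- The inputs needed to build the trace function. -/
structure TraceInput (lam : R →+* A) (I : Ideal A) (c : ℕ) : Prop where
  p_mem : (p : A) ∈ I
  exists_wit : ∀ (k : ℕ) (g : G), ∃ t : R, IsWit J χ k g t
  kill_mem : ∀ (k : ℕ) (t : R), (∀ x : J, (p ^ (k + c)) • x = 0 → t • x = 0) → lam t ∈ I ^ k

variable [IsAdicComplete I A] {lam : R →+* A} {c : ℕ}

/-- In an adically separated ring congruence modulo every power is equality. -/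
theorem eq_of_forall_sub_mem_pow {a b : A} (h : ∀ n, a - b ∈ I ^ n) : a = b := by
  refine sub_eq_zero.mp (IsHausdorff.haus (IsAdicComplete.toIsHausdorff (I := I) (M := A)) _ ?_)
  intro n
  rw [SModEq.zero, smul_eq_mul, Ideal.mul_top]
  exact h n

namespace TraceInput

variable (H : TraceInput J χ lam I c)

include H in
omit [SMulCommClass G R J] [IsAdicComplete I A] in
theorem lam_sub_mem {k : ℕ} {g : G} {t t' : R} (ht : IsWit J χ (k + c) g t)
    (ht' : IsWit J χ (k + c) g t') : lam t - lam t' ∈ I ^ k := by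
  rw [← map_sub]
  exact H.kill_mem k _ (kill_of_isWit ht ht')

include H in
omit [SMulCommClass G R J] in
theorem exists_value (g : G) :
    ∃ a : A, ∀ k t, IsWit J χ (k + c) g t → lam t - a ∈ I ^ k := by
  choose t ht using fun k => H.exists_wit (k + c) g
  have hprec : ∀ {m n}, m ≤ n → lam (t m) ≡ lam (t n) [SMOD (I ^ m • ⊤ : Submodule A A)] := by
    intro m n hmn
    rw [SModEq.sub_mem, smul_eq_mul, Ideal.mul_top]
    exact H.lam_sub_mem (ht m) ((ht n).mono (by omega))
  obtain ⟨L, hL⟩ := IsPrecomplete.prec (IsAdicComplete.toIsPrecomplete (I := I) (M := A)) hprec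
  refine ⟨L, fun k s hs => ?_⟩
  have h1 := hL k
  rw [SModEq.sub_mem, smul_eq_mul, Ideal.mul_top] at h1
  have h2 := H.lam_sub_mem hs (ht k)
  have := add_mem h2 h1
  rwa [sub_add_sub_cancel] at this

/-- The trace function. -/
noncomputable def tr (g : G) : A := (H.exists_value g).choose

omit [SMulCommClass G R J] in
theorem tr_spec {k : ℕ} {g : G} {t : R} (ht : IsWit J χ (k + c) g t) :
    lam t - H.tr g ∈ I ^ k :=
  (H.exists_value g).choose_spec k t ht

omit [SMulCommClass G R J] in
theorem tr_eq {g : G} {a : A}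
    (h : ∀ k, ∃ t, IsWit J χ (k + c) g t ∧ lam t - a ∈ I ^ k) : H.tr g = a := by
  refine eq_of_forall_sub_mem_pow (I := I) fun k => ?_
  obtain ⟨t, ht, hta⟩ := h k
  have := sub_mem hta (H.tr_spec ht)
  rwa [sub_sub_sub_cancel_left] at this

omit [SMulCommClass G R J] in
theorem tr_one : H.tr 1 = 2 :=
  H.tr_eq fun k => ⟨2, isWit_one _, by rw [map_ofNat, sub_self]; exact zero_mem _⟩

theorem tr_comm (x y : G) : H.tr (y * x) = H.tr (x * y) :=
  H.tr_eq fun k => by
    obtain ⟨t, ht⟩ := H.exists_wit (k + c) (x * y)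
    exact ⟨t, ht.comm, H.tr_spec ht⟩

/-- The determinant character. -/
noncomputable def det : G →* A := (padicTo H.p_mem).toMonoidHom.comp χ

theorem tr_mul (x y : G) :
    H.tr (x * y) + H.det y * H.tr (x * y⁻¹) = H.tr x * H.tr y := by
  have key : H.tr (x * y) = H.tr x * H.tr y - H.det y * H.tr (x * y⁻¹) := by
    refine H.tr_eq fun k => ?_
    obtain ⟨r, hr⟩ := H.exists_wit (k + c) x
    obtain ⟨s, hs⟩ := H.exists_wit (k + c) y
    obtain ⟨b, hb⟩ := H.exists_wit (k + c) (x * y⁻¹)
    refine ⟨_, IsWit.mul hr hs hb (natCast_chiNat χ (k + c) y), ?_⟩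
    have e1 : lam r * lam s - H.tr x * H.tr y ∈ I ^ k := by
      have := add_mem (Ideal.mul_mem_right (lam s) _ (H.tr_spec hr))
        (Ideal.mul_mem_left _ (H.tr x) (H.tr_spec hs))
      convert this using 1
      ring
    have e2 : (chiNat χ (k + c) y : A) * lam b - H.det y * H.tr (x * y⁻¹) ∈ I ^ k := by
      have hd : H.det y - (chiNat χ (k + c) y : A) ∈ I ^ k :=
        Ideal.pow_le_pow_right (Nat.le_add_right k c) (padicTo_sub_mem H.p_mem (k + c) (χ y))
      have := sub_mem (Ideal.mul_mem_left _ (chiNat χ (k + c) y : A) (H.tr_spec hb))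
        (Ideal.mul_mem_right (H.tr (x * y⁻¹)) _ hd)
      convert this using 1
      ring
    have := sub_mem e1 e2
    rw [map_sub, map_mul, map_nsmul, nsmul_eq_mul]
    convert this using 1
    ring
  linear_combination key

omit [SMulCommClass G R J] in
theorem det_congr {n : ℕ} {g h : G}
    (hχ : PadicInt.toZModPow n (χ h) = PadicInt.toZModPow n (χ g)) :
    H.det h - H.det g ∈ I ^ n := by
  have h1 := padicTo_sub_mem H.p_mem n (χ h)
  have h2 := padicTo_sub_mem H.p_mem n (χ g)
  rw [hχ] at h1
  have := sub_mem h1 h2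
  rwa [sub_sub_sub_cancel_right] at this

omit [SMulCommClass G R J] in
theorem tr_congr {k : ℕ} {g h : G}
    (hJ : ∀ x : J, (p ^ (k + c)) • x = 0 → h • x = g • x)
    (hχ : PadicInt.toZModPow (k + c) (χ h) = PadicInt.toZModPow (k + c) (χ g)) :
    H.tr h - H.tr g ∈ I ^ k := by
  obtain ⟨t, ht⟩ := H.exists_wit (k + c) g
  have := sub_mem (H.tr_spec ht) (H.tr_spec (ht.congr hJ hχ))
  rwa [sub_sub_sub_cancel_left] at this

omit [SMulCommClass G R J] in
theorem tr_mul_left_eq {σ : G} (hJ : ∀ (k : ℕ) (x : J), (p ^ k) • x = 0 → σ • x = x)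
    (hχ : χ σ = 1) (y : G) : H.tr (σ * y) = H.tr y := by
  refine eq_of_forall_sub_mem_pow (I := I) fun k => H.tr_congr ?_ (by rw [map_mul, hχ, one_mul])
  intro x hx
  rw [mul_smul]
  exact hJ _ _ (pow_nsmul_smul_zero y hx)

omit [SMulCommClass G R J] in
theorem det_eq_one {σ : G} (hχ : χ σ = 1) : H.det σ = 1 := by
  simp [det, hχ]

omit [SMulCommClass G R J] in
theorem det_natCast {h : G} {n : ℕ} (hn : χ h = n) : H.det h = n := by
  simp [det, hn]

omit [SMulCommClass G R J] in
theorem det_neg_one {γ : G} (hχ : χ γ = -1) : H.det γ = -1 := by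
  simp [det, hχ]

omit [SMulCommClass G R J] in
theorem tr_eq_zero_of_sq {γ : G} (hc : γ * γ = 1) (hχ : χ γ = -1) : H.tr γ = 0 :=
  H.tr_eq fun k => ⟨0, isWit_zero_of_sq hc hχ, by rw [map_zero, sub_self]; exact zero_mem _⟩

omit [SMulCommClass G R J] in
theorem tr_of_quadratic {h : G} {t : R} {n : ℕ} (hn : χ h = n)
    (hq : ∀ (k : ℕ) (x : J), (p ^ k) • x = 0 → h • h • x - t • h • x + n • x = 0) :
    H.tr h = lam t :=
  H.tr_eq fun k => ⟨t, isWit_of_quadratic (by rw [hn, map_natCast]) (hq _),
    by rw [sub_self]; exact zero_mem _⟩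

end TraceInput

end FLTAgent.GaloisAttach
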