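import Fermat.Prelude.Def_CuspForm_HeckeGaloisRepDatum
import Fermat.Prelude.Def_FreyPackage_EigenformResidualAttachment
import Fermat.Agent.GaloisAttach.Integral
import Fermat.Agent.GaloisAttach.DatumUnramified
import Fermat.Agent.Eigenforms.Character
import Fermat.Agent.MFIntegral.IntegralStructure
import Fermat.Agent.ECTorsion.Galois

/-!
# Attached Galois representations (S29, S30, S31, S42), relative to the Jacobian inputs

Assuming `FrobeniusDivisions` and `JacobianInputs`, proves the four statements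
`eigenform_residualRep`, `galoisRep_of_point`, `datum_isUnramifiedAt` and
`eigenformResidualAttachment`, together with the integral eigencharacter `eigenCharInt`.
-/

set_option autoImplicit false

noncomputable section

open Polynomial
open scoped WeierstrassCurve.Affine

namespace FLTAgent.GaloisAttach

open FLTAgent.Density (GalQ Qbar)

/-- Statement S30, given the inputs. -/
theorem galoisRep_of_point (p : ℕ) [Fact p.Prime] (N : ℕ) [NeZero N] (hJ : JacobianInputs N p)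
    (hF : FrobeniusDivisions) (S : Finset ℕ) (hpS : p ∈ S)
    (O : Type) [CommRing O] [IsDomain O] [IsDiscreteValuationRing O]
    [IsAdicComplete (IsLocalRing.maximalIdeal O) O] [Finite (IsLocalRing.ResidueField O)]
    [CharZero O] (hpO : (p : O) ∈ IsLocalRing.maximalIdeal O)
    (χ : CuspForm.heckeAlgebra N 2 (↑S : Set ℕ) →+* O) :
    ∃ (𝒪'' : Type) (_ : CommRing 𝒪'') (_ : IsDomain 𝒪'') (_ : IsDiscreteValuationRing 𝒪'')
        (_ : IsAdicComplete (IsLocalRing.maximalIdeal 𝒪'') 𝒪'')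
        (_ : Finite (IsLocalRing.ResidueField 𝒪'')) (_ : CharZero 𝒪'')
        (_ : Algebra O 𝒪'') (_ : Module.Finite O 𝒪'') (_ : IsLocalHom (algebraMap O 𝒪'')),
      Function.Injective (algebraMap O 𝒪'') ∧
      ∃ ρ : GaloisRepAdic 𝒪'',
        (∀ (ℓ : ℕ) (hℓ : ℓ.Prime) (hℓN : ¬ ℓ ∣ N) (hℓS : ℓ ∉ (↑S : Set ℕ)),
          ∀ A : ValuationSubring (AlgebraicClosure ℚ), A.LiesOverPrime ℓ →
            ∀ σ : AlgebraicClosure ℚ ≃ₐ[ℚ] AlgebraicClosure ℚ, A.IsFrobeniusAt σ ℓ →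
              LinearMap.charpoly (ρ.ρ σ) =
                X ^ 2 - C (algebraMap O 𝒪'' (χ (CuspForm.heckeAlgebra.T hℓ hℓN hℓS))) * X
                  + C ((ℓ : 𝒪''))) ∧
        (∀ q : ℕ, q.Prime → ¬ q ∣ N → q ≠ p → ρ.IsUnramifiedAt q) := by
  obtain ⟨T⟩ := exists_attachedTrace (Fact.out : p.Prime) hJ hF S.finite_toSet
    (IsLocalRing.maximalIdeal O) hpO χ
  obtain ⟨R⟩ := T.exists_integralMatrixRep
  refine ⟨O, inferInstance, inferInstance, inferInstance, inferInstance, inferInstance,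
    inferInstance, Algebra.id O, inferInstance, ⟨fun _ ha => ha⟩, fun _ _ h => h, R.toRep,
    fun ℓ hℓ hℓN hℓS A hA σ hσ => ?_, fun q hq hqN hqp => R.isUnramifiedAt_toRep hq fun h => ?_⟩
  · have hℓp : ℓ ≠ p := fun h => hℓS (h ▸ hpS)
    obtain ⟨h1, h2⟩ := R.frob ℓ hℓ hℓN hℓS hℓp A hA σ hσ
    show LinearMap.charpoly (Matrix.toLinAlgEquiv' (R.M σ)) = _
    rw [charpoly_toLinAlgEquiv', h1, h2]
    rfl
  · rcases (Nat.Prime.dvd_mul hq).mp h with h | h
    · exact hqN h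
    · exact hqp ((Nat.prime_dvd_prime_iff_eq hq Fact.out).mp h)

/-- Statement S31, given the inputs. -/
theorem datum_isUnramifiedAt {p N : ℕ} [NeZero N] {S : Finset ℕ}
    {O : Type} [CommRing O] [IsDomain O] [IsDiscreteValuationRing O]
    [IsAdicComplete (IsLocalRing.maximalIdeal O) O]
    {θ : CuspForm.heckeAlgebra N 2 (↑S : Set ℕ) →+* IsLocalRing.ResidueField O}
    {T : Type} [CommRing T] [IsLocalRing T] [IsNoetherianRing T]
    [IsAdicComplete (IsLocalRing.maximalIdeal T) T] [Algebra O T] [IsLocalHom (algebraMap O T)]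
    [Module.Finite O T] [Module.Free O T]
    (hp : p.Prime) (hpO : (p : O) ∈ IsLocalRing.maximalIdeal O) (hpS : p ∈ S)
    (hNS : ∀ q : ℕ, q.Prime → q ∣ N → q ∈ S)
    (hJ : JacobianInputs N p) (hF : FrobeniusDivisions)
    (H : CuspForm.HeckeGaloisRepDatum N (↑S : Set ℕ) O θ T)
    (q : ℕ) (hq : q.Prime) (hqS : q ∉ S) : H.ρ.IsUnramifiedAt q := by
  have hpT : (p : T) ∈ IsLocalRing.maximalIdeal T := by
    rw [← map_natCast (algebraMap O T)]
    exact map_nonunit (algebraMap O T) _ hpO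
  obtain ⟨A⟩ := exists_attachedTrace hp hJ hF S.finite_toSet (IsLocalRing.maximalIdeal T) hpT H.π
  refine isUnramifiedAt_of_attached hF A H.ρ H.charpoly_frob H.residual_absIrr hq fun h => ?_
  rcases (Nat.Prime.dvd_mul hq).mp h with h | h
  · exact hqS (hNS q hq h)
  · exact hqS ((Nat.prime_dvd_prime_iff_eq hq hp).mp h ▸ hpS)

theorem isIntegral_eigenChar {N : ℕ} [NeZero N] {S : Set ℕ}
    {g : CuspForm (CongruenceSubgroup.Gamma0 N) 2} (hg : g.IsNormalizedEigenform)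
    (t : CuspForm.heckeAlgebra N 2 S) :
    IsIntegral ℤ (FLTAgent.Eigenforms.eigenChar hg t) := by
  have := FLTAgent.MFIntegral.moduleFinite_heckeAlgebra N 2 S
  exact (IsIntegral.of_finite ℤ t).map (FLTAgent.Eigenforms.eigenChar hg).toIntAlgHom

/-- The eigencharacter with values in the algebraic integers. -/
def eigenCharInt {N : ℕ} [NeZero N] (S : Set ℕ) {g : CuspForm (CongruenceSubgroup.Gamma0 N) 2}
    (hg : g.IsNormalizedEigenform) :
    CuspForm.heckeAlgebra N 2 S →+* integralClosure ℤ ℂ :=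
  (FLTAgent.Eigenforms.eigenChar hg).codRestrict _ fun t => isIntegral_eigenChar hg t

theorem coe_eigenCharInt_T {N : ℕ} [NeZero N] {S : Set ℕ}
    {g : CuspForm (CongruenceSubgroup.Gamma0 N) 2} (hg : g.IsNormalizedEigenform) {ℓ : ℕ}
    (hℓ : ℓ.Prime) (hℓN : ¬ ℓ ∣ N) (hℓS : ℓ ∉ S) :
    ((eigenCharInt S hg (CuspForm.heckeAlgebra.T hℓ hℓN hℓS) : integralClosure ℤ ℂ) : ℂ) =
      ModularFormClass.qCoeff g ℓ :=
  FLTAgent.Eigenforms.eigenChar_T hg hℓ hℓN hℓS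

theorem isAlgClosed_quotient (𝔪 : Ideal (integralClosure ℤ ℂ)) [𝔪.IsMaximal] :
    letI := Ideal.Quotient.field 𝔪
    IsAlgClosed (integralClosure ℤ ℂ ⧸ 𝔪) := by
  let := Ideal.Quotient.field 𝔪
  refine IsAlgClosed.of_exists_root _ fun f hf hirr => ?_
  obtain ⟨F, hF, -, hFm⟩ := lifts_and_degree_eq_and_monic
    (map_surjective (Ideal.Quotient.mk 𝔪) Ideal.Quotient.mk_surjective f) hf
  have hdeg : (F.map (algebraMap (integralClosure ℤ ℂ) ℂ)).degree ≠ 0 := by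
    rw [hFm.degree_map, ← hFm.degree_map (Ideal.Quotient.mk 𝔪), hF]
    exact (degree_pos_of_irreducible hirr).ne'
  obtain ⟨z, hz⟩ := IsAlgClosed.exists_root _ hdeg
  rw [IsRoot, eval_map] at hz
  have hzint : IsIntegral ℤ z := isIntegral_trans z ⟨F, hFm, hz⟩
  refine ⟨Ideal.Quotient.mk 𝔪 ⟨z, hzint⟩, ?_⟩
  have h0 : eval (⟨z, hzint⟩ : integralClosure ℤ ℂ) F = 0 := by
    apply FaithfulSMul.algebraMap_injective (integralClosure ℤ ℂ) ℂ
    rw [map_zero, ← eval₂_at_apply]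
    exact hz
  rw [← hF, eval_map, eval₂_at_apply, h0, map_zero]

theorem ker_isMaximal {p : ℕ} (hp : p.Prime) {k : Type} [Field k] [CharP k p]
    (φ : integralClosure ℤ ℂ →+* k) : (RingHom.ker φ).IsMaximal := by
  have : (RingHom.ker φ).IsPrime := RingHom.ker_isPrime φ
  refine Ideal.isMaximal_of_isIntegral_of_isMaximal_comap (R := ℤ) _ ?_
  have h : (RingHom.ker φ).comap (algebraMap ℤ (integralClosure ℤ ℂ)) =
      Ideal.span {(p : ℤ)} := by
    rw [RingHom.comap_ker, RingHom.ext_int (φ.comp _) (Int.castRingHom k)]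
    ext n
    rw [RingHom.mem_ker, Ideal.mem_span_singleton]
    exact CharP.intCast_eq_zero_iff k p n
  rw [h]
  exact PrincipalIdealRing.isMaximal_of_irreducible (Nat.prime_iff_prime_int.mp hp).irreducible

/-- Residual representation over `ℤ̄/𝔪` attached to an eigenform. -/
theorem exists_residualMatrixRep_quotient {N : ℕ} [NeZero N] {p : ℕ} (hp : p.Prime)
    (hJ : JacobianInputs N p) (hF : FrobeniusDivisions)
    {g : CuspForm (CongruenceSubgroup.Gamma0 N) 2} (hg : g.IsNormalizedEigenform)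
    (𝔪 : Ideal (integralClosure ℤ ℂ)) [𝔪.IsMaximal] (hp𝔪 : (p : integralClosure ℤ ℂ) ∈ 𝔪) :
    letI := Ideal.Quotient.field 𝔪
    Nonempty (ResidualMatrixRep N p ((↑({p} : Finset ℕ)) : Set ℕ)
      ((Ideal.Quotient.mk 𝔪).comp (eigenCharInt _ hg))) := by
  let := Ideal.Quotient.field 𝔪
  have := isAlgClosed_quotient 𝔪
  have : Fact p.Prime := ⟨hp⟩
  have hp0 : ((p : ℕ) : integralClosure ℤ ℂ ⧸ 𝔪) = 0 := by
    rw [← map_natCast (Ideal.Quotient.mk 𝔪), Ideal.Quotient.eq_zero_iff_mem]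
    exact hp𝔪
  have : CharP (integralClosure ℤ ℂ ⧸ 𝔪) p := (CharP.charP_iff_prime_eq_zero hp).mpr hp0
  obtain ⟨T⟩ := exists_attachedTrace hp hJ hF ({p} : Finset ℕ).finite_toSet
    (⊥ : Ideal (integralClosure ℤ ℂ ⧸ 𝔪)) (by rw [Ideal.mem_bot]; exact hp0)
    ((Ideal.Quotient.mk 𝔪).comp (eigenCharInt _ hg))
  exact T.exists_residualMatrixRep hp

/-- Push a residual matrix representation along a field embedding. -/
theorem ResidualMatrixRep.exists_push {N : ℕ} [NeZero N] {p : ℕ} {S : Set ℕ} {K : Type} [Field K]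
    {χ : CuspForm.heckeAlgebra N 2 S →+* K} (R : ResidualMatrixRep N p S χ) {k : Type} [Field k]
    (j : K →+* k) :
    ∃ ρ : ResidualGaloisRep k,
      (∀ (ℓ : ℕ) (hℓ : ℓ.Prime) (hℓN : ¬ ℓ ∣ N) (hℓS : ℓ ∉ S), ℓ ≠ p →
        ∀ A : ValuationSubring Qbar, A.LiesOverPrime ℓ → ∀ σ : GalQ, A.IsFrobeniusAt σ ℓ →
          LinearMap.charpoly (ρ.ρ σ) =
            X ^ 2 - C (j (χ (CuspForm.heckeAlgebra.T hℓ hℓN hℓS))) * X + C (ℓ : k)) ∧
      ∀ q : ℕ, q.Prime → ¬ q ∣ N * p → ρ.IsUnramifiedAt q := by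
  let M : GalQ →* Matrix (Fin 2) (Fin 2) k := j.mapMatrix.toMonoidHom.comp R.M
  refine ⟨{ V := Fin 2 → k
            finrank_eq := by simp
            ρ := (Matrix.toLinAlgEquiv' : Matrix (Fin 2) (Fin 2) k ≃ₐ[k] _).toMonoidHom.comp M
            factorsThroughFiniteLevel := ?_ }, ?_, ?_⟩
  · obtain ⟨L, hL, h⟩ := R.finite_level
    exact ⟨L, hL, fun σ hσ => by
      show Matrix.toLinAlgEquiv' (j.mapMatrix (R.M σ)) = 1
      rw [h σ hσ, map_one, map_one]⟩
  · intro ℓ hℓ hℓN hℓS hℓp A hA σ hσ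
    obtain ⟨h1, h2⟩ := R.frob ℓ hℓ hℓN hℓS hℓp A hA σ hσ
    show LinearMap.charpoly (Matrix.toLinAlgEquiv' (j.mapMatrix (R.M σ))) = _
    rw [charpoly_toLinAlgEquiv', ← RingHom.map_det, h2, map_natCast,
      show (j.mapMatrix (R.M σ)).trace = j (R.M σ).trace from
        (map_sum j (fun i => R.M σ i i) Finset.univ).symm, h1]
  · intro q hq hqN A hA σ hσ
    show Matrix.toLinAlgEquiv' (j.mapMatrix (R.M σ)) = 1
    rw [R.inertia q hq hqN A hA σ hσ, map_one, map_one]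

/-- Statement S29, given the inputs. -/
theorem eigenform_residualRep {N : ℕ} {g : CuspForm (CongruenceSubgroup.Gamma0 N) 2}
    (hg : g.IsNormalizedEigenform) {p : ℕ} (hp : p.Prime) {k : Type} [Field k] [CharP k p]
    (φ : integralClosure ℤ ℂ →+* k)
    (hJ : ∀ [NeZero N], JacobianInputs N p) (hF : FrobeniusDivisions) :
    ∃ ρ : ResidualGaloisRep k, ρ.IsAttachedTo g φ ∧
      ∀ ℓ : ℕ, ℓ.Prime → ¬ ℓ ∣ N * p → ρ.IsUnramifiedAt ℓ := by
  rcases eq_or_ne N 0 with rfl | hN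
  · exact ⟨{ V := Fin 2 → k
             finrank_eq := by simp
             ρ := 1
             factorsThroughFiniteLevel := ⟨⊥, inferInstance, fun _ _ => rfl⟩ },
      fun ℓ _ h => absurd (dvd_zero ℓ) h, fun ℓ _ h => absurd (by simp) h⟩
  have : NeZero N := ⟨hN⟩
  have := ker_isMaximal hp φ
  let := Ideal.Quotient.field (RingHom.ker φ)
  have hpk : ((p : ℕ) : integralClosure ℤ ℂ) ∈ RingHom.ker φ := by
    rw [RingHom.mem_ker, map_natCast, CharP.cast_eq_zero]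
  obtain ⟨R⟩ := exists_residualMatrixRep_quotient hp hJ hF hg (RingHom.ker φ) hpk
  obtain ⟨ρ, h1, h2⟩ := R.exists_push (RingHom.kerLift φ)
  refine ⟨ρ, fun ℓ hℓ hℓN hℓk A hA σ hσ => ?_, h2⟩
  have hℓp : ℓ ≠ p := fun h => hℓk (by rw [h, CharP.cast_eq_zero])
  have hℓS : ℓ ∉ ((↑({p} : Finset ℕ)) : Set ℕ) := by simpa using hℓp
  exact ⟨_, coe_eigenCharInt_T hg hℓ hℓN hℓS, h1 ℓ hℓ hℓN hℓS hℓp A hA σ hσ⟩

theorem freyCurve_isElliptic (P : FreyPackage) : P.freyCurve.IsElliptic := by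
  refine ⟨isUnit_iff_ne_zero.mpr ?_⟩
  have hΔ : P.freyCurve.Δ =
      ((P.a : ℚ) ^ P.p * (P.b : ℚ) ^ P.p * ((P.a : ℚ) ^ P.p + (P.b : ℚ) ^ P.p)) ^ 2 / 256 := by
    simp only [FreyPackage.freyCurve, WeierstrassCurve.Δ, WeierstrassCurve.b₂,
      WeierstrassCurve.b₄, WeierstrassCurve.b₆, WeierstrassCurve.b₈]
    ring
  have hc : (P.a : ℚ) ^ P.p + (P.b : ℚ) ^ P.p = (P.c : ℚ) ^ P.p := by exact_mod_cast P.hFLT
  rw [hΔ, hc]
  have h1 : (P.a : ℚ) ≠ 0 := Int.cast_ne_zero.mpr P.ha0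
  have h2 : (P.b : ℚ) ≠ 0 := Int.cast_ne_zero.mpr P.hb0
  have h3 : (P.c : ℚ) ≠ 0 := Int.cast_ne_zero.mpr P.hc0
  positivity

/-- Statement S42, given the inputs. -/
theorem eigenformResidualAttachment (P : FreyPackage)
    (hJ : ∀ (M : ℕ) [NeZero M], JacobianInputs M P.p) (hF : FrobeniusDivisions) :
    ∀ M : ℕ, 0 < M → P.EigenformResidualAttachmentAt M := by
  intro M hM g hg 𝔪 h𝔪 hp𝔪
  classical
  have : NeZero M := ⟨hM.ne'⟩
  have : Fact P.p.Prime := ⟨P.pp⟩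
  let := Ideal.Quotient.field 𝔪
  obtain ⟨R⟩ := exists_residualMatrixRep_quotient P.pp (hJ M) hF hg 𝔪 hp𝔪
  have hp0 : ((P.p : ℕ) : integralClosure ℤ ℂ ⧸ 𝔪) = 0 := by
    rw [← map_natCast (Ideal.Quotient.mk 𝔪), Ideal.Quotient.eq_zero_iff_mem]
    exact hp𝔪
  have : CharP (integralClosure ℤ ℂ ⧸ 𝔪) P.p := (CharP.charP_iff_prime_eq_zero P.pp).mpr hp0
  have := freyCurve_isElliptic P
  have : Finite (Submodule.torsionBy ℤ (P.freyCurve⁄(AlgebraicClosure ℚ)).toAffine.Point P.p) :=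
    FLTAgent.ECTorsion.finite_torsionBy (P.freyCurve.toAffine)
      (Nat.cast_ne_zero.mpr P.hp0)
  obtain ⟨E, hEfd, hE⟩ := FLTAgent.ECTorsion.exists_fixingSubgroup_smul_eq (S := ℚ)
    (K := AlgebraicClosure ℚ) P.freyCurve.toAffine (n := P.p)
  obtain ⟨L, hLfd, hL⟩ := R.finite_level
  let F : IntermediateField ℚ Qbar :=
    IntermediateField.normalClosure ℚ (E ⊔ L : IntermediateField ℚ Qbar) Qbar
  have : FiniteDimensional ℚ (E ⊔ L : IntermediateField ℚ Qbar) :=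
    IntermediateField.finiteDimensional_sup _ _
  have : Normal ℚ F := normalClosure.normal ℚ _ Qbar
  have : IsGalois ℚ F := IsGalois.mk
  have : NumberField F := ⟨⟩
  have hle : (E ⊔ L : IntermediateField ℚ Qbar) ≤ F := IntermediateField.le_normalClosure _
  let ρ : Representation (integralClosure ℤ ℂ ⧸ 𝔪) GalQ (Fin 2 → integralClosure ℤ ℂ ⧸ 𝔪) :=
    (Matrix.toLinAlgEquiv' :
      Matrix (Fin 2) (Fin 2) (integralClosure ℤ ℂ ⧸ 𝔪) ≃ₐ[_] _).toMonoidHom.comp R.M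
  refine ⟨integralClosure ℤ ℂ ⧸ 𝔪, inferInstance, ZMod.algebra _ P.p,
    Fin 2 → integralClosure ℤ ℂ ⧸ 𝔪, inferInstance, inferInstance, ρ, Ideal.Quotient.mk 𝔪,
    F, inferInstance, inferInstance, inferInstance, inferInstance, inferInstance,
    by rw [Ideal.mk_ker], by simp, ?_, ?_, ?_⟩
  · intro τ hτ
    have hfix : ∀ y ∈ F, τ y = y := fun y hy => by
      have h1 := AlgEquiv.restrictNormal_commutes τ F ⟨y, hy⟩
      rw [MonoidHom.mem_ker] at hτ
      rw [show AlgEquiv.restrictNormal τ F = 1 from hτ, AlgEquiv.one_apply] at h1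
      exact h1.symm
    refine ⟨?_, ?_⟩
    · refine MonoidHom.mem_ker.mpr (LinearMap.ext fun x => ?_)
      exact hE τ ((IntermediateField.mem_fixingSubgroup_iff _ _).mpr
        fun y hy => hfix y (hle (le_sup_left (b := L) hy))) x
    · refine MonoidHom.mem_ker.mpr ?_
      show Matrix.toLinAlgEquiv' (R.M τ) = 1
      rw [hL τ fun y hy => hfix y (hle (le_sup_right (a := E) hy)), map_one]
  · intro ℓ hℓ hℓM hℓp A hA τ hτ
    have hℓS : ℓ ∉ ((↑({P.p} : Finset ℕ)) : Set ℕ) := by simpa using hℓp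
    refine ⟨_, coe_eigenCharInt_T hg hℓ hℓM hℓS, ?_⟩
    show LinearMap.trace _ _ (Matrix.toLinAlgEquiv' (R.M τ)) = _
    rw [show Matrix.toLinAlgEquiv' (R.M τ) = Matrix.toLin' (R.M τ) from rfl,
      Matrix.trace_toLin'_eq, (R.frob ℓ hℓ hℓM hℓS hℓp A hA τ hτ).1]
    rfl
  · intro ℓ hℓ hℓM hℓp A hA τ hτ
    have hℓS : ℓ ∉ ((↑({P.p} : Finset ℕ)) : Set ℕ) := by simpa using hℓp
    show LinearMap.det (Matrix.toLinAlgEquiv' (R.M τ)) = _
    rw [show Matrix.toLinAlgEquiv' (R.M τ) = Matrix.toLin' (R.M τ) from rfl,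
      LinearMap.det_toLin', (R.frob ℓ hℓ hℓM hℓS hℓp A hA τ hτ).2]

end FLTAgent.GaloisAttach
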